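import Fermat.Agent.PsiDistribution.Basic

/-!
# The error term is the limit in mean square of its sums over the zeros

On the Riemann hypothesis the mean square over `[0, Y]` of `errFn + ∑_{|γ| ≤ T} w e^(iγy)/ρ` is
small for `T` large: on `[X, 2X]` the zeros with `T < |γ| ≤ X²` are controlled by the mean square
of the sums over the zeros, the others trivially.
-/

set_option autoImplicit false

noncomputable section

namespace FA.PsiDistribution

open Complex MeasureTheory Filter Topology Finset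
open FA.RiemannMangoldt FA.ExplicitFormula FA.SelbergShort
open FA.ZeroFree (ell ell_pos four_le_ell ell_mono)
open scoped Real Chebyshev

/-- The terms of the explicit formula beyond `X²`. -/
theorem exists_zeroTerm_tail : ∃ C, 0 ≤ C ∧ ((∀ ρ : ℂ, xiFn ρ = 0 → ρ.re = 1 / 2) →
    ∀ X u : ℝ, 1 ≤ X → 0 < u → u ≤ 4 * X →
      ‖(∑' ρ, zeroTerm u ρ) - ∑ ρ ∈ zerosUpTo (X ^ 2), zeroTerm u ρ‖ ≤ C * ell X) := by
  obtain ⟨C₂, hC₂, htail⟩ := exists_sum_tail
  obtain ⟨c, hc, hinv⟩ := exists_inv_im_le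
  refine ⟨16 * c ^ 2 * C₂, by positivity, fun hre X u hX hu hu4 => ?_⟩
  classical
  obtain ⟨R, hR⟩ : ∃ R, R = X ^ 2 := ⟨_, rfl⟩
  rw [← hR]
  have hX0 : 0 < X := by linarith
  have hR1 : 1 ≤ R := hR ▸ one_le_pow₀ hX
  obtain ⟨g, hg⟩ : ∃ g : ℂ → ℂ,
      g = fun ρ => if ρ ∈ zerosUpTo R then zeroTerm u ρ else 0 := ⟨_, rfl⟩
  have hgs : Summable g := summable_of_ne_finset_zero (s := zerosUpTo R) fun ρ hρ =>
    hg ▸ if_neg hρ
  have hgsum : ∑' ρ, g ρ = ∑ ρ ∈ zerosUpTo R, zeroTerm u ρ := by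
    rw [tsum_eq_sum (s := zerosUpTo R) fun ρ hρ => hg ▸ if_neg hρ]
    exact sum_congr rfl fun ρ hρ => by simp only [hg, if_pos hρ]
  have hs := (summable_norm_zeroTerm hu).of_norm
  rw [← hgsum, ← Summable.tsum_sub hs hgs]
  refine (norm_tsum_le_tsum_norm (hs.sub hgs).norm).trans
    (Real.tsum_le_of_sum_le (fun ρ => norm_nonneg _) fun S => ?_)
  rw [← sum_filter_of_ne (p := fun ρ => xiFn ρ = 0 ∧ R < |ρ.im|) fun ρ _ hne => ?_]
  swap
  · refine ⟨?_, ?_⟩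
    · by_contra h'
      exact hne (by simp [hg, zeroTerm_eq_zero _ h'])
    · by_contra h'
      refine hne ?_
      by_cases hz : xiFn ρ = 0
      · simp [hg, mem_zerosUpTo.2 ⟨hz, not_lt.1 h'⟩]
      · simp [hg, zeroTerm_eq_zero _ hz]
  refine (sum_le_sum (g := fun ρ => 8 * X ^ (3 / 2 : ℝ) * c ^ 2 *
    ((zeroWeight ρ : ℝ) * (1 / (1 + |ρ.im|) ^ 2))) fun ρ hρ => ?_).trans ?_
  · obtain ⟨hρ0, hρR⟩ := (mem_filter.1 hρ).2
    have hnot : ρ ∉ zerosUpTo R := fun h => (not_lt.2 (mem_zerosUpTo.1 h).2) hρR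
    simp only [hg, if_neg hnot, sub_zero]
    have hden : 1 / ‖ρ * (ρ + 1)‖ ≤ c ^ 2 * (1 / (1 + |ρ.im|) ^ 2) := by
      refine (one_div_le_one_div_of_le ?_ (norm_mul_add_one_ge hρ0)).trans ?_
      · exact sq_pos_of_ne_zero (im_ne_zero_of_zero hρ0)
      · rw [← sq_abs, ← one_div_pow, ← one_div_pow, ← mul_pow]
        exact pow_le_pow_left₀ (by positivity) (hinv ρ hρ0) 2
    have hp : ‖(u : ℂ) ^ (ρ + 1)‖ ≤ 8 * X ^ (3 / 2 : ℝ) := by
      rw [norm_cpow_eq_rpow_re_of_pos hu, add_re, hre ρ hρ0, one_re]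
      refine (Real.rpow_le_rpow hu.le hu4 (by norm_num)).trans (le_of_eq ?_)
      rw [show (1 / 2 + 1 : ℝ) = 3 / 2 by norm_num, Real.mul_rpow (by norm_num) hX0.le,
        show (4 : ℝ) = 2 ^ (2 : ℝ) by norm_num, ← Real.rpow_mul two_pos.le]
      norm_num
    rw [zeroTerm, norm_mul, Complex.norm_natCast, norm_div, div_eq_mul_one_div]
    exact (mul_le_mul_of_nonneg_left (mul_le_mul hp hden (by positivity) (by positivity))
      (Nat.cast_nonneg _)).trans (le_of_eq (by ring))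
  · rw [← mul_sum]
    refine (mul_le_mul_of_nonneg_left (htail R _ hR1 fun ρ hρ => (mem_filter.1 hρ).2)
      (by positivity)).trans ?_
    have hXR : X ^ (3 / 2 : ℝ) ≤ R := by
      rw [hR, ← Real.rpow_two]
      exact Real.rpow_le_rpow_of_exponent_le hX (by norm_num)
    have hl : ell R ≤ 2 * ell X := hR ▸ ell_scale_le (sq_nonneg X) hX (by linarith)
    have := ell_pos R
    calc 8 * X ^ (3 / 2 : ℝ) * c ^ 2 * (C₂ * (ell R / R))
        = 8 * c ^ 2 * C₂ * ell R * (X ^ (3 / 2 : ℝ) / R) := by ring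
      _ ≤ 8 * c ^ 2 * C₂ * ell R * 1 := by
          refine mul_le_mul_of_nonneg_left ?_ (by positivity)
          rw [div_le_one (by linarith)]
          exact hXR
      _ ≤ 8 * c ^ 2 * C₂ * (2 * ell X) := by
          rw [mul_one]
          exact mul_le_mul_of_nonneg_left hl (by positivity)
      _ = _ := by ring

/-- A sum over zeros as an average of its derivative. -/
theorem sum_zeroTerm_diff {S : Finset ℂ} (hS : ∀ ρ ∈ S, ρ ≠ 0 ∧ ρ + 1 ≠ 0) {x : ℝ} (hx : 1 ≤ x) :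
    ∫ t in (0 : ℝ)..1, powSum S (fun ρ => 1 / ρ) 0 (x + t) =
        powSum S invPair 1 (x + 1) - powSum S invPair 1 x ∧
      powSum S invPair 1 (x + 1) - powSum S invPair 1 x =
        ∑ ρ ∈ S, zeroTerm (x + 1) ρ - ∑ ρ ∈ S, zeroTerm x ρ := by
  refine ⟨?_, ?_⟩
  · have e := integral_powSum (S := S) invPair (m := 0) hx zero_le_one
      fun ρ hρ => by simpa using (hS ρ hρ).2
    rw [zero_add] at e
    rw [← e]
    refine intervalIntegral.integral_congr fun t _ => ?_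
    simp only [powSum]
    refine sum_congr rfl fun ρ hρ => ?_
    have := (hS ρ hρ).1
    have := (hS ρ hρ).2
    simp only [invPair, ofReal_one]
    field_simp
  · simp only [powSum_of_le _ _ _ hx, powSum_of_le _ _ _ (show 1 ≤ x + 1 by linarith), zeroTerm,
      invPair, ofReal_one]
    congr 1 <;> exact sum_congr rfl fun ρ _ => by ring

/-- A finite sum moves by at most the number of its zeros. -/
theorem norm_powSum_step_le {S : Finset ℂ} (hS : ∀ ρ ∈ S, ρ.re = 1 / 2) {x : ℝ} (hx : 1 ≤ x) :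
    ‖powSum S (fun ρ => 1 / ρ) 0 x - ∫ t in (0 : ℝ)..1, powSum S (fun ρ => 1 / ρ) 0 (x + t)‖ ≤
      ∑ ρ ∈ S, (zeroWeight ρ : ℝ) := by
  have hne : ∀ ρ ∈ S, ρ ≠ 0 := fun ρ hρ e => by
    have := hS ρ hρ
    rw [e, zero_re] at this
    norm_num at this
  obtain ⟨P, hP⟩ : ∃ P : ℝ → ℂ, P = powSum S (fun ρ => 1 / ρ) 0 := ⟨_, rfl⟩
  rw [← hP]
  have hPc : Continuous fun t => P (x + t) :=
    (hP ▸ continuous_powSum _ _ _ : Continuous P).comp (by fun_prop)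
  have hstep : ∀ t ∈ Set.uIoc (0 : ℝ) 1, ‖P x - P (x + t)‖ ≤ ∑ ρ ∈ S, (zeroWeight ρ : ℝ) := by
    intro t ht
    rw [Set.uIoc_of_le zero_le_one] at ht
    have e := integral_powSum (S := S) (fun ρ => 1 / ρ) (m := -1) hx ht.1.le
      fun ρ hρ => by simpa using hne ρ hρ
    rw [show (-1 : ℝ) + 1 = 0 by norm_num, ← hP] at e
    rw [norm_sub_rev, ← e]
    refine (intervalIntegral.norm_integral_le_of_norm_le_const
      (C := ∑ ρ ∈ S, (zeroWeight ρ : ℝ)) fun u hu => ?_).trans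
      (mul_le_of_le_one_right (sum_nonneg fun ρ _ => Nat.cast_nonneg _)
        (by rw [sub_zero, abs_of_pos ht.1]; exact ht.2))
    rw [Set.uIoc_of_le ht.1.le] at hu
    rw [powSum_of_le _ _ _ (by linarith [hu.1])]
    refine (norm_sum_le _ _).trans (sum_le_sum fun ρ hρ => ?_)
    rw [ofReal_zero, add_zero, one_div_mul_cancel (hne ρ hρ), mul_one, norm_mul,
      Complex.norm_natCast, norm_cpow_eq_rpow_re_of_pos (by linarith [hu.1]), add_re, hS ρ hρ,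
      ofReal_re]
    exact mul_le_of_le_one_right (Nat.cast_nonneg _)
      (Real.rpow_le_one_of_one_le_of_nonpos (by linarith [hu.1]) (by norm_num))
  have e : P x - ∫ t in (0 : ℝ)..1, P (x + t) = ∫ t in (0 : ℝ)..1, (P x - P (x + t)) := by
    rw [intervalIntegral.integral_sub intervalIntegrable_const (hPc.intervalIntegrable _ _),
      intervalIntegral.integral_const]
    simp
  rw [e]
  refine (intervalIntegral.norm_integral_le_of_norm_le_const hstep).trans (le_of_eq ?_)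
  norm_num

/-- The wave sum is the sum over zeros at `x = e^y`, divided by `√x`. -/
theorem powSum_exp {S : Finset ℂ} (hS : ∀ ρ ∈ S, ρ.re = 1 / 2) {y : ℝ} (hy : 0 ≤ y) :
    powSum S (fun ρ => 1 / ρ) 0 (Real.exp y) = (Real.exp (y / 2) : ℂ) * waveSum S y := by
  rw [powSum_of_le _ _ _ (Real.one_le_exp hy), waveSum, mul_sum]
  refine sum_congr rfl fun ρ hρ => ?_
  rw [ofReal_zero, add_zero, cpow_def_of_ne_zero (ofReal_ne_zero.2 (Real.exp_pos y).ne'),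
    ← ofReal_log (Real.exp_pos y).le, Real.log_exp,
    show (y : ℂ) * ρ = ((y / 2 : ℝ) : ℂ) + (ρ.im : ℂ) * y * I by
      rw [show ρ = ((1 / 2 : ℝ) : ℂ) + ρ.im * I from
        Complex.ext (by simp [hS ρ hρ]) (by simp)]
      simp
      ring, Complex.exp_add, ← ofReal_exp]
  ring

/-- **One interval of length `log 2`.** -/
theorem exists_block_le : ∃ K, 0 ≤ K ∧ ((∀ ρ : ℂ, xiFn ρ = 0 → ρ.re = 1 / 2) →
    ∀ T τ : ℝ, 1 ≤ T → (∀ S : Finset ℂ, (∀ ρ ∈ S, xiFn ρ = 0 ∧ T < |ρ.im|) →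
      ∑ ρ ∈ S, ell ρ.im * ((zeroWeight ρ : ℝ) * (1 / (1 + |ρ.im|) ^ 2)) ≤ τ) →
    ∀ X : ℝ, T ≤ X →
      ∫ y in Real.log X..Real.log (2 * X), ‖(errFn y : ℂ) + waveSum (zerosUpTo T) y‖ ^ 2 ≤
        K * τ + 2 * (K * ell X + ∑ ρ ∈ zerosUpTo T, (zeroWeight ρ : ℝ)) ^ 2 / X) := by
  obtain ⟨K₀, hK₀, hms⟩ := exists_meanSquare_weighted
  obtain ⟨C₁, hC₁, hex⟩ := exists_psi_explicit
  obtain ⟨C₂, hC₂, htail⟩ := exists_zeroTerm_tail
  obtain ⟨c, hc, hinv⟩ := exists_inv_im_le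
  refine ⟨2 * (K₀ * c ^ 2) + 2 * C₁ + 2 * C₂, by positivity,
    fun hre T τ hT hτ X hTX => ?_⟩
  classical
  have hX : 1 ≤ X := hT.trans hTX
  have hX0 : 0 < X := by linarith
  obtain ⟨SR, hSR⟩ : ∃ SR, SR = zerosUpTo (X ^ 2) := ⟨_, rfl⟩
  obtain ⟨ST, hST⟩ : ∃ ST, ST = zerosUpTo T := ⟨_, rfl⟩
  obtain ⟨SM, hSM⟩ : ∃ SM, SM = SR \ ST := ⟨_, rfl⟩
  rw [← hST]
  have hsub : ST ⊆ SR := fun ρ hρ => by
    rw [hST, mem_zerosUpTo] at hρ
    rw [hSR, mem_zerosUpTo]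
    exact ⟨hρ.1, hρ.2.trans (hTX.trans (le_self_pow₀ hX two_ne_zero))⟩
  have hRz : ∀ ρ ∈ SR, xiFn ρ = 0 := fun ρ hρ => (mem_zerosUpTo.1 (hSR ▸ hρ)).1
  have hMR : SM ⊆ SR := hSM ▸ sdiff_subset
  have hne : ∀ ρ ∈ SR, ρ ≠ 0 ∧ ρ + 1 ≠ 0 := fun ρ hρ => by
    have := hre ρ (hRz ρ hρ)
    exact ⟨fun e => by rw [e, zero_re] at this; norm_num at this, fun e => by
      have h1 := congrArg Complex.re e
      rw [add_re, this, one_re, zero_re] at h1
      norm_num at h1⟩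
  have hM : ∀ ρ ∈ SM, xiFn ρ = 0 ∧ T < |ρ.im| := fun ρ hρ => by
    rw [hSM, Finset.mem_sdiff, hST, mem_zerosUpTo, not_and, not_le] at hρ
    exact ⟨hRz ρ hρ.1, hρ.2 (hRz ρ hρ.1)⟩
  obtain ⟨P, hP⟩ : ∃ P : ℝ → ℂ, P = powSum ST (fun ρ => 1 / ρ) 0 := ⟨_, rfl⟩
  obtain ⟨Q, hQ⟩ : ∃ Q : ℝ → ℂ, Q = powSum SM (fun ρ => 1 / ρ) 0 := ⟨_, rfl⟩
  obtain ⟨A, hA⟩ : ∃ A : ℝ → ℂ,
      A = fun x : ℝ => powSum SM invPair 1 (x + 1) - powSum SM invPair 1 x := ⟨_, rfl⟩
  have hQc : Continuous Q := hQ ▸ continuous_powSum _ _ _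
  have hAc : Continuous A := hA ▸
    ((continuous_powSum _ _ _).comp (by fun_prop)).sub (continuous_powSum _ _ _)
  obtain ⟨N, hN⟩ : ∃ N, N = ∑ ρ ∈ ST, (zeroWeight ρ : ℝ) := ⟨_, rfl⟩
  obtain ⟨K, hKdef⟩ : ∃ K, K = 2 * (K₀ * c ^ 2) + 2 * C₁ + 2 * C₂ := ⟨_, rfl⟩
  rw [← hKdef, ← hN]
  have hlX := ell_pos X
  have hpt : ∀ x ∈ Set.Icc X (2 * X),
      ‖((ψ x - x : ℝ) : ℂ) + P x + A x‖ ≤ K * ell X + N := by
    intro x hx
    have hx1 : 1 ≤ x := hX.trans hx.1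
    obtain ⟨hi, hs⟩ := sum_zeroTerm_diff (S := ST) (fun ρ hρ => hne ρ (hsub hρ)) hx1
    have hAx := (sum_zeroTerm_diff (S := SM) (fun ρ hρ => hne ρ (hMR hρ)) hx1).2
    have hstep := norm_powSum_step_le (S := ST)
      (fun ρ hρ => hre ρ (hRz ρ (hsub hρ))) hx1
    rw [← hP, ← hN] at hstep
    rw [← hP] at hi
    rw [hi, hs] at hstep
    have h1 := htail hre X (x + 1) hX (by linarith) (by linarith [hx.2])
    have h0 := htail hre X x hX (by linarith) (by linarith [hx.2])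
    rw [← hSR] at h1 h0
    have h2 := hex x hx1
    have h3 : ell x ≤ 2 * ell X := ell_scale_le (by linarith) hX (by nlinarith [hx.2])
    rw [hA]
    dsimp only
    rw [hAx]
    have e1 := sum_sdiff (f := fun ρ => zeroTerm (x + 1) ρ) hsub
    have e0 := sum_sdiff (f := fun ρ => zeroTerm x ρ) hsub
    rw [← hSM] at e1 e0
    rw [show ((ψ x - x : ℝ) : ℂ) + P x + (∑ ρ ∈ SM, zeroTerm (x + 1) ρ - ∑ ρ ∈ SM, zeroTerm x ρ) =
        (((ψ x - x : ℝ) : ℂ) + ((∑' ρ, zeroTerm (x + 1) ρ) - ∑' ρ, zeroTerm x ρ)) +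
        (-((∑' ρ, zeroTerm (x + 1) ρ) - ∑ ρ ∈ SR, zeroTerm (x + 1) ρ) +
          ((∑' ρ, zeroTerm x ρ) - ∑ ρ ∈ SR, zeroTerm x ρ)) +
        (P x - (∑ ρ ∈ ST, zeroTerm (x + 1) ρ - ∑ ρ ∈ ST, zeroTerm x ρ)) by
      rw [← e1, ← e0]; ring]
    refine norm_add₃_le.trans ?_
    have h4 := norm_add_le (-((∑' ρ, zeroTerm (x + 1) ρ) - ∑ ρ ∈ SR, zeroTerm (x + 1) ρ))
      ((∑' ρ, zeroTerm x ρ) - ∑ ρ ∈ SR, zeroTerm x ρ)
    rw [norm_neg] at h4
    have h5 : 0 ≤ 2 * (K₀ * c ^ 2) * ell X := by positivity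
    have h6 := mul_le_mul_of_nonneg_left h3 hC₁
    rw [hKdef]
    linarith
  have hmean : ∫ x in X..2 * X, ‖A x‖ ^ 2 ≤ K₀ * c ^ 2 * τ * X ^ 2 := by
    have hbase : ∫ x in X..4 * X, ‖Q x‖ ^ 2 ≤ K₀ * c ^ 2 * τ * X ^ 2 := by
      rw [hQ]
      refine (hms X 0 SM _ hX (by norm_num) fun ρ hρ => ⟨(hM ρ hρ).1, hre ρ (hM ρ hρ).1⟩).trans ?_
      rw [show (2 : ℝ) + 2 * 0 = ((2 : ℕ) : ℝ) by norm_num, Real.rpow_natCast,
        show K₀ * c ^ 2 * τ * X ^ 2 = K₀ * (X ^ 2 * (c ^ 2 * τ)) by ring]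
      refine mul_le_mul_of_nonneg_left (mul_le_mul_of_nonneg_left ?_ (sq_nonneg X)) hK₀
      refine (sum_le_sum (g := fun ρ => c ^ 2 * (ell ρ.im * ((zeroWeight ρ : ℝ) *
        (1 / (1 + |ρ.im|) ^ 2)))) fun ρ hρ => ?_).trans ?_
      · rw [norm_div, norm_one, mul_left_comm (c ^ 2), mul_left_comm (c ^ 2) (zeroWeight ρ : ℝ),
          ← one_div_pow (1 + |ρ.im|), ← mul_pow]
        refine mul_le_mul_of_nonneg_left (mul_le_mul_of_nonneg_left ?_ (Nat.cast_nonneg _))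
          (ell_pos _).le
        exact pow_le_pow_left₀ (by positivity) ((one_div_le_one_div_of_le (abs_pos.2
          (im_ne_zero_of_zero (hM ρ hρ).1)) (abs_im_le_norm ρ)).trans (hinv ρ (hM ρ hρ).1)) 2
      · rw [← mul_sum]
        exact mul_le_mul_of_nonneg_left (hτ SM hM) (sq_nonneg c)
    calc ∫ x in X..2 * X, ‖A x‖ ^ 2 = ∫ x in X..2 * X, ‖∫ t in (0 : ℝ)..1, Q (x + t)‖ ^ 2 := by
          refine intervalIntegral.integral_congr fun x hx => ?_
          rw [Set.uIcc_of_le (by linarith)] at hx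
          simp only [hA, hQ, (sum_zeroTerm_diff (S := SM) (fun ρ hρ => hne ρ (hMR hρ))
            (hX.trans hx.1)).1]
      _ ≤ 1 ^ 2 * (K₀ * c ^ 2 * τ * X ^ 2) := integral_avg_sq_le hQc (by linarith) zero_le_one
          fun t ht => (integral_shift_le hQc hX0.le ht.1 (by linarith [ht.2])).trans hbase
      _ = _ := by ring
  obtain ⟨B, hB⟩ : ∃ B, B = K * ell X + N := ⟨_, rfl⟩
  obtain ⟨G, hG⟩ : ∃ G : ℝ → ℝ,
      G = fun x => (2 * ‖A x‖ ^ 2 + 2 * B ^ 2) / X ^ 2 := ⟨_, rfl⟩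
  have hGc : Continuous G := hG ▸ by fun_prop
  have hl : Real.log X ≤ Real.log (2 * X) := Real.log_le_log hX0 (by linarith)
  have hdom : ∀ y ∈ Set.Icc (Real.log X) (Real.log (2 * X)),
      ‖(errFn y : ℂ) + waveSum ST y‖ ^ 2 ≤ (G ∘ Real.exp) y * Real.exp y := by
    intro y hy
    have hy0 : 0 ≤ y := (Real.log_nonneg hX).trans hy.1
    obtain ⟨x, hx⟩ : ∃ x, x = Real.exp y := ⟨_, rfl⟩
    have hx0 : 0 < x := hx ▸ Real.exp_pos y
    have hxm : x ∈ Set.Icc X (2 * X) := by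
      rw [hx]
      constructor
      · rw [← Real.exp_log hX0]; exact Real.exp_le_exp.2 hy.1
      · rw [← Real.exp_log (show 0 < 2 * X by linarith)]; exact Real.exp_le_exp.2 hy.2
    have hsq : Real.exp (y / 2) ^ 2 = x := by
      rw [hx, ← Real.exp_nat_mul]
      ring_nf
    have e : (errFn y : ℂ) + waveSum ST y =
        (((ψ x - x : ℝ) : ℂ) + P x) / (Real.exp (y / 2) : ℂ) := by
      have hne' : ((Real.exp (y / 2) : ℝ) : ℂ) ≠ 0 := ofReal_ne_zero.2 (Real.exp_pos _).ne'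
      rw [hP, hx, powSum_exp (fun ρ hρ => hre ρ (hRz ρ (hsub hρ))) hy0, add_div,
        mul_div_cancel_left₀ _ hne', errFn, ofReal_div]
    have h1 : ‖((ψ x - x : ℝ) : ℂ) + P x‖ ≤ ‖A x‖ + B := by
      have := norm_sub_le (((ψ x - x : ℝ) : ℂ) + P x + A x) (A x)
      rw [add_sub_cancel_right] at this
      linarith [hB.symm ▸ hpt x hxm]
    rw [e, norm_div, Complex.norm_real, Real.norm_eq_abs, abs_of_pos (Real.exp_pos _), div_pow,
      hsq, Function.comp_apply, ← hx, hG, div_mul_eq_mul_div,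
      div_le_div_iff₀ hx0 (by positivity)]
    calc ‖((ψ x - x : ℝ) : ℂ) + P x‖ ^ 2 * X ^ 2
        ≤ (2 * ‖A x‖ ^ 2 + 2 * B ^ 2) * (x * x) := by
          refine mul_le_mul ?_ ?_ (sq_nonneg X) (by positivity)
          · refine (pow_le_pow_left₀ (norm_nonneg _) h1 2).trans ?_
            have := two_mul_le_add_sq ‖A x‖ B
            rw [add_sq]
            linarith
          · rw [sq]
            exact mul_le_mul hxm.1 hxm.1 hX0.le hx0.le
      _ = _ := by ring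
  have hi : IntervalIntegrable (fun y => ‖(errFn y : ℂ) + waveSum ST y‖ ^ 2) volume (Real.log X)
      (Real.log (2 * X)) :=
    intervalIntegrable_errFn (Φ := fun y e => ‖(e : ℂ) + waveSum ST y‖ ^ 2) (by
      have := continuous_waveSum ST
      fun_prop) _ _
  refine (intervalIntegral.integral_mono_on hl hi
    (((hGc.comp Real.continuous_exp).mul Real.continuous_exp).intervalIntegrable _ _) hdom).trans ?_
  simp only [Pi.mul_apply]
  rw [intervalIntegral.integral_comp_mul_deriv (f := Real.exp) (f' := Real.exp)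
    (fun y _ => Real.hasDerivAt_exp y) Real.continuous_exp.continuousOn hGc,
    Real.exp_log hX0, Real.exp_log (show 0 < 2 * X by linarith), hG]
  rw [intervalIntegral.integral_div, intervalIntegral.integral_add
    (Continuous.intervalIntegrable (by fun_prop) _ _) intervalIntegrable_const,
    intervalIntegral.integral_const_mul, intervalIntegral.integral_const, smul_eq_mul,
    show 2 * X - X = X by ring, add_div]
  refine add_le_add ?_ (le_of_eq (by rw [hB]; field_simp))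
  rw [div_le_iff₀ (by positivity)]
  have hτ0 : 0 ≤ τ := le_trans (by simp) (hτ ∅ (by simp))
  rw [hKdef]
  have : 0 ≤ (2 * C₁ + 2 * C₂) * τ * X ^ 2 := by positivity
  linarith

/-- **Besicovitch almost periodicity.** -/
theorem exists_approx (hre : ∀ ρ : ℂ, xiFn ρ = 0 → ρ.re = 1 / 2) {ε : ℝ} (hε : 0 < ε) :
    ∃ T₀ : ℝ, ∀ T : ℝ, T₀ ≤ T → ∀ᶠ Y : ℝ in atTop,
      meanUpTo (fun y => ‖(errFn y : ℂ) + waveSum (zerosUpTo T) y‖ ^ 2) Y ≤ ε := by
  obtain ⟨K, hK, hblock⟩ := exists_block_le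
  obtain ⟨l, hldef⟩ : ∃ l, l = Real.log 2 := ⟨_, rfl⟩
  have hl : 0 < l := hldef ▸ Real.log_pos one_lt_two
  obtain ⟨τ, hτ⟩ : ∃ τ, τ = ε * l / (8 * (K + 1)) := ⟨_, rfl⟩
  have hτ0 : 0 < τ := hτ ▸ by positivity
  obtain ⟨F, hF⟩ := summable_iff_vanishing.1 summable_ell_weight _ (Iio_mem_nhds hτ0)
  refine ⟨max 1 (∑ ρ ∈ F, |ρ.im|), fun T hT => ?_⟩
  have hτS : ∀ S : Finset ℂ, (∀ ρ ∈ S, xiFn ρ = 0 ∧ T < |ρ.im|) →
      ∑ ρ ∈ S, ell ρ.im * ((zeroWeight ρ : ℝ) * (1 / (1 + |ρ.im|) ^ 2)) ≤ τ := fun S hS => by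
    refine le_of_lt (hF S (Finset.disjoint_left.2 fun ρ hρ hρF => ?_))
    have := single_le_sum (f := fun ρ : ℂ => |ρ.im|) (fun i _ => abs_nonneg _) hρF
    linarith [(hS ρ hρ).2, le_max_right 1 (∑ ρ ∈ F, |ρ.im|)]
  have hT1 : 1 ≤ T := le_trans (le_max_left _ _) hT
  obtain ⟨N, hN⟩ : ∃ N, N = ∑ ρ ∈ zerosUpTo T, (zeroWeight ρ : ℝ) := ⟨_, rfl⟩
  have hN0 : 0 ≤ N := hN ▸ sum_nonneg fun ρ _ => Nat.cast_nonneg _
  have hsmall : ∀ᶠ X : ℝ in atTop, T ≤ X ∧ 2 * (K * ell X + N) ^ 2 / X ≤ ε * l / 8 := by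
    refine (eventually_ge_atTop T).and ?_
    obtain ⟨M, hM1, hM⟩ := FA.ZeroFree.ell_pow_le
    have hlim : Tendsto (fun X : ℝ => 4 * ((K + N) ^ 2 * M) * X ^ (-(1 / 2) : ℝ)) atTop (𝓝 0) := by
      simpa using (tendsto_rpow_neg_atTop (show (0 : ℝ) < 1 / 2 by norm_num)).const_mul _
    filter_upwards [hlim.eventually (eventually_le_nhds (show 0 < ε * l / 8 by positivity)),
      eventually_ge_atTop (1 : ℝ)] with X hXs hX1
    refine le_trans ?_ hXs
    have h1 : ell X ^ 2 ≤ M * (2 * X ^ (1 / 2 : ℝ)) := by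
      refine (pow_le_pow_right₀ (by linarith [four_le_ell X]) (by norm_num : 2 ≤ 9)).trans
        ((hM X).trans (mul_le_mul_of_nonneg_left ?_ (by linarith)))
      calc (1 + X ^ 2) ^ (1 / 4 : ℝ) ≤ ((2 * X) ^ (2 : ℝ)) ^ (1 / 4 : ℝ) :=
            Real.rpow_le_rpow (by positivity) (by rw [Real.rpow_two]; nlinarith) (by norm_num)
        _ = 2 ^ (1 / 2 : ℝ) * X ^ (1 / 2 : ℝ) := by
            rw [← Real.rpow_mul (by positivity), Real.mul_rpow two_pos.le (by linarith)]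
            norm_num
        _ ≤ _ := mul_le_mul_of_nonneg_right
            (Real.rpow_le_self_of_one_le one_le_two (by norm_num)) (by positivity)
    have h2 : (K * ell X + N) ^ 2 ≤ (K + N) ^ 2 * ell X ^ 2 := by
      rw [← mul_pow]
      refine pow_le_pow_left₀ (by have := ell_pos X; positivity) ?_ 2
      have := le_mul_of_one_le_right hN0 (show 1 ≤ ell X by linarith [four_le_ell X])
      linarith
    rw [div_le_iff₀ (by linarith), mul_assoc (4 * ((K + N) ^ 2 * M)), ← Real.rpow_add_one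
      (by linarith), show -(1 / 2 : ℝ) + 1 = 1 / 2 by norm_num]
    linarith [mul_le_mul_of_nonneg_left h1 (sq_nonneg (K + N))]
  obtain ⟨X₀, hX₀⟩ := eventually_atTop.1 hsmall
  obtain ⟨X₁, hX₁⟩ : ∃ X₁, X₁ = max X₀ 1 := ⟨_, rfl⟩
  obtain ⟨a, ha⟩ : ∃ a, a = Real.log X₁ := ⟨_, rfl⟩
  have hX₁1 : 1 ≤ X₁ := hX₁ ▸ le_max_right _ _
  have ha0 : 0 ≤ a := ha ▸ Real.log_nonneg hX₁1
  obtain ⟨f, hf⟩ : ∃ f : ℝ → ℝ,
      f = fun y => ‖(errFn y : ℂ) + waveSum (zerosUpTo T) y‖ ^ 2 := ⟨_, rfl⟩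
  have hi : ∀ p q : ℝ, IntervalIntegrable f volume p q := fun p q => hf ▸
    intervalIntegrable_errFn (Φ := fun y e => ‖(e : ℂ) + waveSum (zerosUpTo T) y‖ ^ 2) (by
      have := continuous_waveSum (zerosUpTo T)
      fun_prop) p q
  have hone : ∀ b, a ≤ b → ∫ y in b..b + l, f y ≤ ε * l / 4 := by
    intro b hb
    have hXb : X₀ ≤ Real.exp b := by
      have := Real.exp_le_exp.2 hb
      rw [ha, Real.exp_log (by linarith)] at this
      linarith [hX₁ ▸ le_max_left X₀ 1]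
    obtain ⟨hTb, hsm⟩ := hX₀ _ hXb
    have h := hblock hre T τ hT1 hτS _ hTb
    rw [Real.log_exp, Real.log_mul two_ne_zero (Real.exp_pos b).ne', Real.log_exp, ← hldef,
      add_comm l, ← hN] at h
    rw [hf]
    refine h.trans ?_
    have h1 : K * τ ≤ ε * l / 8 := by
      rw [hτ, mul_div_assoc', div_le_div_iff₀ (by positivity) (by norm_num)]
      linarith [mul_pos hε hl]
    linarith
  have hn : ∀ n : ℕ, ∫ y in a..a + n * l, f y ≤ n * (ε * l / 4) := by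
    intro n
    induction n with
    | zero => simp
    | succ n ih =>
      rw [show a + ((n + 1 : ℕ) : ℝ) * l = a + n * l + l by push_cast; ring,
        ← intervalIntegral.integral_add_adjacent_intervals (hi _ _) (hi (a + n * l) _)]
      have := hone (a + n * l) (by
        have : (0 : ℝ) ≤ n * l := by positivity
        linarith)
      push_cast
      linarith
  obtain ⟨I₀, hI₀⟩ : ∃ I₀, I₀ = |∫ y in (0 : ℝ)..a, f y| := ⟨_, rfl⟩
  filter_upwards [eventually_ge_atTop a, eventually_ge_atTop ((I₀ + ε * l) * 2 / ε),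
    eventually_gt_atTop 0] with Y hY hYI hY0
  rw [meanUpTo, smul_eq_mul, inv_mul_le_iff₀ hY0, ← hf]
  obtain ⟨n, hn'⟩ : ∃ n, n = ⌈(Y - a) / l⌉₊ := ⟨_, rfl⟩
  have h1 : Y ≤ a + n * l := by
    have := Nat.le_ceil ((Y - a) / l)
    rw [div_le_iff₀ hl, ← hn'] at this
    linarith
  have h2 : (n : ℝ) * l ≤ Y - a + l := by
    have := (Nat.ceil_lt_add_one (show 0 ≤ (Y - a) / l by
      exact div_nonneg (by linarith) hl.le)).le
    rw [← hn', div_add_one hl.ne', le_div_iff₀ hl] at this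
    exact this
  have h3 : ∫ y in a..Y, f y ≤ ∫ y in a..a + n * l, f y :=
    intervalIntegral.integral_mono_interval le_rfl hY h1
      (Eventually.of_forall fun y => hf ▸ sq_nonneg _) (hi _ _)
  rw [← intervalIntegral.integral_add_adjacent_intervals (hi 0 a) (hi a Y)]
  rw [div_le_iff₀ hε] at hYI
  have h4 := le_abs_self (∫ y in (0 : ℝ)..a, f y)
  rw [← hI₀] at h4
  linarith [hn n, mul_le_mul_of_nonneg_left h2 hε.le, mul_nonneg hε.le ha0,
    mul_pos hε hl, mul_pos hε hY0]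

end FA.PsiDistribution

end
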