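import Fermat.Agent.SelbergShort.Variance
import Fermat.Agent.LindelofZeros.Poisson

/-!
# The error term of the prime number theorem on a logarithmic scale, and means

`errFn y = (ψ (e^y) - e^y) / e^(y/2)`, its partial sums `∑ w e^(iγy) / ρ` over the zeros, and the
means `(1/Y) ∫_0^Y`.
-/

set_option autoImplicit false

noncomputable section

namespace FA.PsiDistribution

open Complex MeasureTheory Filter Topology Finset
open FA.RiemannMangoldt FA.ExplicitFormula
open FA.ZeroFree (ell ell_pos four_le_ell ell_mono ell_pow_le)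
open FA.LindelofZeros (zeroWeight_conj)
open FA.LiCriterion (xiFn_conj)
open scoped Real Chebyshev ComplexConjugate

/-- `(ψ (e^y) - e^y) / e^(y/2)`. -/
def errFn (y : ℝ) : ℝ := (ψ (Real.exp y) - Real.exp y) / Real.exp (y / 2)

/-- `∑ w e^(iγy) / ρ` over a finite set of zeros. -/
def waveSum (S : Finset ℂ) (y : ℝ) : ℂ :=
  ∑ ρ ∈ S, (zeroWeight ρ : ℂ) / ρ * cexp (ρ.im * y * I)

/-- The mean over `[0, Y]`. -/
def meanUpTo {G : Type*} [NormedAddCommGroup G] [NormedSpace ℝ G] (f : ℝ → G) (Y : ℝ) : G :=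
  Y⁻¹ • ∫ y in (0 : ℝ)..Y, f y

theorem measurable_errFn : Measurable errFn :=
  (((Chebyshev.psi_mono.comp Real.exp_monotone).measurable).sub Real.measurable_exp).div
    (Real.measurable_exp.comp (measurable_id.div_const 2))

theorem abs_errFn_le {y b : ℝ} (hy : |y| ≤ b) : |errFn y| ≤ 8 * Real.exp (2 * b) := by
  obtain ⟨h1, h2⟩ := abs_le.1 hy
  have hψ := Chebyshev.psi_le_const_mul_self (Real.exp_pos y).le
  have hψ0 := Chebyshev.psi_nonneg (Real.exp y)
  have h4 : Real.log 4 + 4 ≤ 7 := by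
    rw [show (4 : ℝ) = 2 * 2 by norm_num, Real.log_mul two_ne_zero two_ne_zero]
    linarith [Real.log_two_lt_d9]
  have hnum : |ψ (Real.exp y) - Real.exp y| ≤ 8 * Real.exp y := by
    have := mul_le_mul_of_nonneg_right h4 (Real.exp_pos y).le
    rw [abs_le]
    constructor <;> linarith [Real.exp_pos y]
  rw [errFn, abs_div, abs_of_pos (Real.exp_pos _), div_le_iff₀ (Real.exp_pos _), mul_assoc,
    ← Real.exp_add]
  exact hnum.trans (mul_le_mul_of_nonneg_left (Real.exp_le_exp.2 (by linarith)) (by norm_num))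

/-- Continuous functions of `y` and `errFn y` are locally integrable. -/
theorem intervalIntegrable_errFn {G : Type*} [NormedAddCommGroup G] [MeasurableSpace G]
    [BorelSpace G] [SecondCountableTopology G] {Φ : ℝ → ℝ → G}
    (hΦ : Continuous (Function.uncurry Φ)) (a b : ℝ) :
    IntervalIntegrable (fun y => Φ y (errFn y)) volume a b := by
  obtain ⟨c, hc⟩ : ∃ c, c = max |a| |b| := ⟨_, rfl⟩
  obtain ⟨M, hM⟩ : ∃ M, M = 8 * Real.exp (2 * c) := ⟨_, rfl⟩
  obtain ⟨B, hB⟩ := ((isCompact_uIcc (a := a) (b := b)).prod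
    (isCompact_Icc (a := -M) (b := M))).exists_bound_of_continuousOn hΦ.continuousOn
  have hm : Measurable fun y => Φ y (errFn y) :=
    hΦ.measurable.comp (measurable_id.prodMk measurable_errFn)
  refine (intervalIntegrable_const (c := B)).mono_fun' hm.aestronglyMeasurable ?_
  refine (ae_restrict_mem measurableSet_uIoc).mono fun y hy => hB (y, errFn y) ⟨?_, ?_⟩
  · exact Set.uIoc_subset_uIcc hy
  · have h1 : |y| ≤ c := hc ▸ by
      rcases Set.mem_uIoc.1 hy with h | h <;> rw [abs_le] <;> constructor <;>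
        linarith [le_max_left |a| |b|, le_max_right |a| |b|, le_abs_self a, le_abs_self b,
          neg_abs_le a, neg_abs_le b]
    exact abs_le.1 (hM ▸ abs_errFn_le h1)

theorem continuous_waveSum (S : Finset ℂ) : Continuous (waveSum S) := by
  unfold waveSum
  fun_prop

theorem norm_waveSum_le (S : Finset ℂ) (y : ℝ) :
    ‖waveSum S y‖ ≤ ∑ ρ ∈ S, (zeroWeight ρ : ℝ) / ‖ρ‖ := by
  refine (norm_sum_le _ _).trans (le_of_eq (sum_congr rfl fun ρ _ => ?_))
  rw [norm_mul, norm_div, Complex.norm_natCast, show (ρ.im : ℂ) * y * I = ((ρ.im * y : ℝ) : ℂ) * I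
    by push_cast; ring, Complex.norm_exp_ofReal_mul_I, mul_one]

/-- The mean of an exponential. -/
theorem tendsto_mean_exp (c : ℝ) :
    Tendsto (meanUpTo fun y : ℝ => cexp (c * y * I)) atTop (𝓝 (if c = 0 then 1 else 0)) := by
  split_ifs with hc
  · subst hc
    refine tendsto_const_nhds.congr' ?_
    filter_upwards [eventually_gt_atTop 0] with Y hY
    simp [meanUpTo, hY.ne']
  have hne : (c : ℂ) * I ≠ 0 := mul_ne_zero (ofReal_ne_zero.2 hc) I_ne_zero
  refine squeeze_zero_norm' (a := fun Y => 2 / |c| / Y) ?_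
    (tendsto_const_nhds.div_atTop tendsto_id)
  filter_upwards [eventually_gt_atTop 0] with Y hY
  rw [meanUpTo, norm_smul, norm_inv, Real.norm_eq_abs, abs_of_pos hY, div_eq_inv_mul _ Y]
  refine mul_le_mul_of_nonneg_left ?_ (by positivity)
  simp only [show ∀ y : ℝ, (c : ℂ) * y * I = (c : ℂ) * I * y from fun y => by ring]
  rw [integral_exp_mul_complex hne, norm_div, norm_mul, Complex.norm_I, mul_one,
    Complex.norm_real, Real.norm_eq_abs, ofReal_zero, mul_zero, Complex.exp_zero]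
  refine div_le_div_of_nonneg_right ((norm_sub_le _ _).trans ?_) (abs_nonneg c)
  rw [show (c : ℂ) * I * Y = ((c * Y : ℝ) : ℂ) * I by push_cast; ring,
    Complex.norm_exp_ofReal_mul_I, norm_one]
  norm_num

theorem waveSum_mul_conj (S : Finset ℂ) (y : ℝ) :
    waveSum S y * conj (waveSum S y) = ∑ ρ ∈ S, ∑ σ ∈ S,
      (zeroWeight ρ : ℂ) / ρ * conj ((zeroWeight σ : ℂ) / σ) *
        cexp (((ρ.im - σ.im : ℝ) : ℂ) * y * I) := by
  rw [waveSum, map_sum, sum_mul_sum]
  refine sum_congr rfl fun ρ _ => sum_congr rfl fun σ _ => ?_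
  rw [map_mul, ← Complex.exp_conj, mul_mul_mul_comm, ← Complex.exp_add]
  congr 2
  simp only [map_mul, Complex.conj_I, Complex.conj_ofReal]
  push_cast
  ring

/-- **Orthogonality.** -/
theorem tendsto_mean_waveSum_sq {S : Finset ℂ} (hS : Set.InjOn Complex.im (S : Set ℂ)) :
    Tendsto (meanUpTo fun y => ‖waveSum S y‖ ^ 2) atTop
      (𝓝 (∑ ρ ∈ S, (zeroWeight ρ : ℝ) ^ 2 / ‖ρ‖ ^ 2)) := by
  obtain ⟨a, ha⟩ : ∃ a : ℂ → ℂ, a = fun ρ => (zeroWeight ρ : ℂ) / ρ := ⟨_, rfl⟩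
  have h1 : Tendsto (fun Y => ∑ ρ ∈ S, ∑ σ ∈ S, a ρ * conj (a σ) *
      meanUpTo (fun y : ℝ => cexp (((ρ.im - σ.im : ℝ) : ℂ) * y * I)) Y) atTop
      (𝓝 (∑ ρ ∈ S, ∑ σ ∈ S, a ρ * conj (a σ) * if ρ.im - σ.im = 0 then 1 else 0)) :=
    tendsto_finsetSum _ fun ρ _ => tendsto_finsetSum _ fun σ _ =>
      (tendsto_mean_exp _).const_mul _
  have hlim : (∑ ρ ∈ S, ∑ σ ∈ S, a ρ * conj (a σ) * if ρ.im - σ.im = 0 then 1 else 0) =
      ((∑ ρ ∈ S, (zeroWeight ρ : ℝ) ^ 2 / ‖ρ‖ ^ 2 : ℝ) : ℂ) := by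
    rw [ofReal_sum]
    refine sum_congr rfl fun ρ hρ => ?_
    rw [sum_eq_single ρ (fun σ hσ hne => by
      rw [if_neg (fun h => hne (hS hσ hρ (sub_eq_zero.1 h).symm)), mul_zero])
      (fun h => absurd hρ h), sub_self, if_pos rfl, mul_one, Complex.mul_conj', ha]
    simp only [norm_div, Complex.norm_natCast, div_pow]
    push_cast
    ring
  rw [hlim] at h1
  have h2 := Complex.continuous_re.continuousAt.tendsto.comp h1
  rw [ofReal_re] at h2
  refine h2.congr fun Y => ?_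
  simp only [Function.comp_apply, meanUpTo, Complex.real_smul]
  have e : ∀ y : ℝ, ((‖waveSum S y‖ ^ 2 : ℝ) : ℂ) = ∑ ρ ∈ S, ∑ σ ∈ S,
      a ρ * conj (a σ) * cexp (((ρ.im - σ.im : ℝ) : ℂ) * y * I) := fun y => by
    rw [ha, ← waveSum_mul_conj, Complex.mul_conj']
    push_cast
    rfl
  rw [← ofReal_re (Y⁻¹ • ∫ y in (0 : ℝ)..Y, ‖waveSum S y‖ ^ 2), smul_eq_mul, ofReal_mul,
    ← intervalIntegral.integral_ofReal]
  simp only [e]
  rw [intervalIntegral.integral_finsetSum fun ρ _ =>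
      Continuous.intervalIntegrable (by fun_prop) _ _,
    mul_sum]
  congr 1
  refine sum_congr rfl fun ρ _ => ?_
  rw [intervalIntegral.integral_finsetSum fun σ _ =>
    Continuous.intervalIntegrable (by fun_prop) _ _, mul_sum]
  refine sum_congr rfl fun σ _ => ?_
  rw [intervalIntegral.integral_const_mul]
  ring

/-- Over the zeros up to a height the sum is real. -/
theorem waveSum_zerosUpTo_real (T y : ℝ) :
    ((waveSum (zerosUpTo T) y).re : ℂ) = waveSum (zerosUpTo T) y := by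
  refine Complex.conj_eq_iff_re.1 ?_
  rw [waveSum, map_sum]
  have hc : ∀ ρ ∈ zerosUpTo T, conj ρ ∈ zerosUpTo T := fun ρ hρ => by
    rw [mem_zerosUpTo] at hρ ⊢
    exact ⟨by rw [xiFn_conj, hρ.1, map_zero], by rw [conj_im, abs_neg]; exact hρ.2⟩
  refine sum_nbij' (fun ρ => conj ρ) (fun ρ => conj ρ) hc hc (fun ρ _ => Complex.conj_conj ρ)
    (fun ρ _ => Complex.conj_conj ρ) fun ρ _ => ?_
  rw [zeroWeight_conj, map_mul, map_div₀, map_natCast, ← Complex.exp_conj, conj_im]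
  congr 2
  simp only [map_mul, Complex.conj_I, Complex.conj_ofReal]
  push_cast
  ring

theorem injOn_im {S : Finset ℂ} (hS : ∀ ρ ∈ S, ρ.re = 1 / 2) :
    Set.InjOn Complex.im (S : Set ℂ) :=
  fun ρ hρ σ hσ h => Complex.ext ((hS ρ hρ).trans (hS σ hσ).symm) h

/-- The square of the weight against the height. -/
theorem exists_weight_le : ∃ C, 0 ≤ C ∧ ∀ ρ : ℂ, xiFn ρ = 0 →
    (zeroWeight ρ : ℝ) ≤ C * ell ρ.im := by
  obtain ⟨C, hC, h⟩ := exists_block
  refine ⟨C, hC, fun ρ hρ => ?_⟩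
  have h1 := h ⌊|ρ.im|⌋₊ {ρ} fun σ hσ => by
    rw [Finset.mem_singleton.1 hσ]
    exact ⟨hρ, Nat.floor_le (abs_nonneg _), (Nat.lt_floor_add_one _).le⟩
  rw [sum_singleton] at h1
  refine h1.trans (mul_le_mul_of_nonneg_left (ell_mono ?_) hC)
  rw [Nat.abs_cast]
  exact Nat.floor_le (abs_nonneg _)

/-- `∑ w log γ / γ²` over the zeros converges. -/
theorem summable_ell_weight : Summable fun ρ : ℂ =>
    ell ρ.im * ((zeroWeight ρ : ℝ) * (1 / (1 + |ρ.im|) ^ 2)) := by
  obtain ⟨C, hC, h⟩ := exists_sum_blocks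
  obtain ⟨K, hK1, hK⟩ := ell_pow_le
  obtain ⟨q, hq⟩ : ∃ q : ℕ → ℝ, q = fun k : ℕ => ((k + 1 : ℕ) : ℝ) ^ (-(3 / 2) : ℝ) := ⟨_, rfl⟩
  have hqs : Summable q := hq ▸
    (summable_nat_add_iff (f := fun n : ℕ => (n : ℝ) ^ (-(3 / 2) : ℝ)) 1).2
      (Real.summable_nat_rpow.2 (by norm_num))
  have hq0 : ∀ k, 0 ≤ q k := fun k => hq ▸ Real.rpow_nonneg (Nat.cast_nonneg _) _
  refine summable_of_sum_le (c := C * (2 * K * ∑' k, q k))
    (fun ρ => by have := ell_pos ρ.im; positivity) fun S => ?_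
  classical
  obtain ⟨S', hS'⟩ : ∃ S', S' = S.filter fun ρ => xiFn ρ = 0 := ⟨_, rfl⟩
  rw [← sum_subset (hS' ▸ filter_subset _ S : S' ⊆ S) fun ρ hρ hρ' => by
    rw [hS', mem_filter, not_and] at hρ'
    simp [zeroWeight_eq_zero (hρ' hρ)]]
  refine le_trans (le_of_eq (sum_congr rfl fun ρ _ => mul_left_comm _ _ _)) ?_
  refine (h S' (S'.image fun ρ : ℂ => ⌊|ρ.im|⌋₊) _
    (fun k : ℕ => ell (((k + 1 : ℕ) : ℝ)) / (((k + 1 : ℕ) : ℝ)) ^ 2)
    (fun ρ hρ => ⟨by rw [hS', mem_filter] at hρ; exact hρ.2, mem_image_of_mem _ hρ, ?_⟩)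
    fun k _ => div_nonneg (ell_pos _).le (by positivity)).trans
      (mul_le_mul_of_nonneg_left ?_ hC)
  · rw [mul_one_div]
    refine div_le_div₀ (ell_pos _).le (ell_mono ?_) (by positivity)
      (pow_le_pow_left₀ (by positivity) ?_ 2)
    · rw [Nat.abs_cast]
      push_cast
      exact (Nat.lt_floor_add_one _).le
    · push_cast
      linarith [Nat.floor_le (abs_nonneg ρ.im)]
  refine (sum_le_sum (g := fun k : ℕ => 2 * K * q k) fun k _ => ?_).trans ?_
  · obtain ⟨u, hu⟩ : ∃ u, u = ((k + 1 : ℕ) : ℝ) := ⟨_, rfl⟩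
    have hu1 : 1 ≤ u := by rw [hu]; exact_mod_cast Nat.succ_pos k
    rw [← hu]
    have h9 : ell u ^ 2 ≤ 2 * K * u ^ (1 / 2 : ℝ) := by
      refine (pow_le_pow_right₀ (by linarith [four_le_ell u]) (by norm_num : 2 ≤ 9)).trans
        ((hK u).trans ?_)
      have h2 : (1 + u ^ 2) ^ (1 / 4 : ℝ) ≤ (2 * u) ^ (1 / 2 : ℝ) := by
        rw [show (1 / 2 : ℝ) = (2 : ℕ) * (1 / 4) by norm_num, Real.rpow_natCast_mul (by positivity)]
        exact Real.rpow_le_rpow (by positivity) (by nlinarith) (by norm_num)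
      rw [Real.mul_rpow two_pos.le (by linarith)] at h2
      have h3 : (2 : ℝ) ^ (1 / 2 : ℝ) ≤ 2 :=
        Real.rpow_le_self_of_one_le one_le_two (by norm_num)
      have := mul_le_mul_of_nonneg_right h3 (Real.rpow_nonneg (show 0 ≤ u by linarith) (1 / 2 : ℝ))
      rw [mul_comm 2 K, mul_assoc]
      exact mul_le_mul_of_nonneg_left (h2.trans this) (by linarith)
    have hk : ell (k : ℝ) ≤ ell u := ell_mono (by
      rw [Nat.abs_cast, abs_of_nonneg (by linarith), hu]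
      exact_mod_cast Nat.le_succ k)
    rw [mul_div_assoc']
    calc ell (k : ℝ) * ell u / u ^ 2 ≤ ell u ^ 2 / u ^ 2 := by
          rw [sq (ell u)]
          exact div_le_div_of_nonneg_right (mul_le_mul_of_nonneg_right hk (ell_pos u).le)
            (by positivity)
      _ ≤ 2 * K * u ^ (1 / 2 : ℝ) / u ^ 2 := div_le_div_of_nonneg_right h9 (by positivity)
      _ = 2 * K * q k := by
          simp only [hq, ← hu]
          rw [mul_div_assoc, ← Real.rpow_natCast, ← Real.rpow_sub (by linarith)]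
          norm_num
  · rw [← mul_sum]
    exact mul_le_mul_of_nonneg_left (hqs.sum_le_tsum _ fun k _ => hq0 k) (by linarith)

/-- `∑ w² / |ρ|²` converges. -/
theorem summable_weight_sq : Summable fun ρ : ℂ => (zeroWeight ρ : ℝ) ^ 2 / ‖ρ‖ ^ 2 := by
  obtain ⟨C, hC, hw⟩ := exists_weight_le
  obtain ⟨c, hc, hinv⟩ := exists_inv_im_le
  refine Summable.of_nonneg_of_le (fun ρ => by positivity) (fun ρ => ?_)
    (summable_ell_weight.mul_left (C * c ^ 2))
  by_cases hρ : xiFn ρ = 0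
  swap
  · simp [zeroWeight_eq_zero hρ]
  have h1 : 1 / ‖ρ‖ ≤ c * (1 / (1 + |ρ.im|)) :=
    (one_div_le_one_div_of_le (abs_pos.2 (im_ne_zero_of_zero hρ)) (abs_im_le_norm ρ)).trans
      (hinv ρ hρ)
  rw [sq (zeroWeight ρ : ℝ), div_eq_mul_one_div, ← one_div_pow, ← one_div_pow (1 + |ρ.im|)]
  calc (zeroWeight ρ : ℝ) * zeroWeight ρ * (1 / ‖ρ‖) ^ 2
      ≤ C * ell ρ.im * zeroWeight ρ * (c * (1 / (1 + |ρ.im|))) ^ 2 :=
        mul_le_mul (mul_le_mul_of_nonneg_right (hw ρ hρ) (Nat.cast_nonneg _))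
          (pow_le_pow_left₀ (by positivity) h1 2) (by positivity)
          (by have := ell_pos ρ.im; positivity)
    _ = _ := by ring

end FA.PsiDistribution

end
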