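import Fermat.Agent.PsiDistribution.Approx
import Fermat.Agent.OrdinateGaps.Main

/-!
# Cramér's mean square

On the Riemann hypothesis `(1/Y) ∫_0^Y errFn² → ∑ w² / |ρ|²` over the distinct zeros, that is
`(1/log X) ∫_2^X ((ψ x - x)/√x)² dx/x` has the same limit, which is positive.
-/

set_option autoImplicit false

noncomputable section

namespace FA.PsiDistribution

open Complex MeasureTheory Filter Topology Finset
open FA.RiemannMangoldt FA.ExplicitFormula
open scoped Real Chebyshev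

/-- `∑ w² / |ρ|²` over the distinct zeros. -/
def cramerSum : ℝ := ∑' ρ : ℂ, (zeroWeight ρ : ℝ) ^ 2 / ‖ρ‖ ^ 2

theorem meanUpTo_le_add {f g h : ℝ → ℝ} {a b Y : ℝ} (hY : 0 < Y)
    (hf : IntervalIntegrable f volume 0 Y) (hg : IntervalIntegrable g volume 0 Y)
    (hh : IntervalIntegrable h volume 0 Y) (hle : ∀ y, f y ≤ a * g y + b * h y) :
    meanUpTo f Y ≤ a * meanUpTo g Y + b * meanUpTo h Y := by
  simp only [meanUpTo, smul_eq_mul]
  rw [show a * (Y⁻¹ * ∫ y in (0 : ℝ)..Y, g y) + b * (Y⁻¹ * ∫ y in (0 : ℝ)..Y, h y) =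
    Y⁻¹ * (a * (∫ y in (0 : ℝ)..Y, g y) + b * ∫ y in (0 : ℝ)..Y, h y) by ring]
  refine mul_le_mul_of_nonneg_left ?_ (by positivity)
  rw [← intervalIntegral.integral_const_mul, ← intervalIntegral.integral_const_mul,
    ← intervalIntegral.integral_add (hg.const_mul a) (hh.const_mul b)]
  exact intervalIntegral.integral_mono_on hY.le hf ((hg.const_mul a).add (hh.const_mul b))
    fun y _ => hle y

theorem sq_le_young {a b δ : ℝ} (hδ : 0 < δ) :
    (a + b) ^ 2 ≤ (1 + δ) * a ^ 2 + (1 + 1 / δ) * b ^ 2 := by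
  have h := mul_nonneg (one_div_pos.2 hδ).le (sq_nonneg (δ * a - b))
  have e : 1 / δ * (δ * a - b) ^ 2 = δ * a ^ 2 - 2 * a * b + 1 / δ * b ^ 2 := by
    field_simp
    ring
  linarith

theorem intervalIntegrable_errFn_sq (a b : ℝ) :
    IntervalIntegrable (fun y => errFn y ^ 2) volume a b :=
  intervalIntegrable_errFn (Φ := fun _ e => e ^ 2) (by fun_prop) a b

theorem intervalIntegrable_approx_sq (T a b : ℝ) :
    IntervalIntegrable (fun y => ‖(errFn y : ℂ) + waveSum (zerosUpTo T) y‖ ^ 2) volume a b :=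
  intervalIntegrable_errFn (Φ := fun y e => ‖(e : ℂ) + waveSum (zerosUpTo T) y‖ ^ 2) (by
    have := continuous_waveSum (zerosUpTo T)
    fun_prop) a b

theorem sq_re_waveSum (T y : ℝ) :
    (waveSum (zerosUpTo T) y).re ^ 2 = ‖waveSum (zerosUpTo T) y‖ ^ 2 := by
  conv_rhs => rw [← waveSum_zerosUpTo_real, Complex.norm_real, Real.norm_eq_abs, sq_abs]

/-- The heights at which the partial sums are close to `cramerSum`. -/
theorem exists_height_sum {δ : ℝ} (hδ : 0 < δ) : ∃ T₁ : ℝ, ∀ T : ℝ, T₁ ≤ T →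
    cramerSum - δ ≤ ∑ ρ ∈ zerosUpTo T, (zeroWeight ρ : ℝ) ^ 2 / ‖ρ‖ ^ 2 ∧
      ∑ ρ ∈ zerosUpTo T, (zeroWeight ρ : ℝ) ^ 2 / ‖ρ‖ ^ 2 ≤ cramerSum := by
  classical
  obtain ⟨F, hF⟩ := (summable_weight_sq.hasSum.eventually
    (eventually_ge_nhds (show cramerSum - δ < cramerSum by linarith))).exists
  refine ⟨∑ ρ ∈ F, |ρ.im|, fun T hT => ⟨hF.trans ?_,
    summable_weight_sq.sum_le_tsum _ fun ρ _ => by positivity⟩⟩
  rw [← sum_filter_of_ne (p := fun ρ => xiFn ρ = 0) fun ρ _ hne => ?_]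
  · refine sum_le_sum_of_subset_of_nonneg (fun ρ hρ => ?_) fun ρ _ _ => by positivity
    rw [mem_filter] at hρ
    exact mem_zerosUpTo.2 ⟨hρ.2, (single_le_sum (f := fun ρ : ℂ => |ρ.im|)
      (fun i _ => abs_nonneg _) hρ.1).trans hT⟩
  · by_contra h
    exact hne (by simp [zeroWeight_eq_zero h])

/-- **Cramér's mean square.** -/
theorem tendsto_mean_errFn_sq (hre : ∀ ρ : ℂ, xiFn ρ = 0 → ρ.re = 1 / 2) :
    Tendsto (meanUpTo fun y => errFn y ^ 2) atTop (𝓝 cramerSum) := by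
  rw [Metric.tendsto_nhds]
  intro η hη
  have hV : 0 ≤ cramerSum := tsum_nonneg fun ρ => by positivity
  obtain ⟨δ, hδ⟩ : ∃ δ, δ = min 1 (η / (4 * cramerSum + 20)) := ⟨_, rfl⟩
  have hδ0 : 0 < δ := hδ ▸ lt_min one_pos (by positivity)
  have hδ1 : δ ≤ 1 := hδ ▸ min_le_left _ _
  have hδη : δ * (4 * cramerSum + 20) ≤ η := by
    rw [← le_div_iff₀ (by positivity)]
    exact hδ ▸ min_le_right _ _
  obtain ⟨T₁, hT₁⟩ := exists_height_sum hδ0
  obtain ⟨T₀, hT₀⟩ := exists_approx hre (pow_pos hδ0 2)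
  obtain ⟨T, hT⟩ : ∃ T, T = max T₀ T₁ := ⟨_, rfl⟩
  obtain ⟨hlow, hup⟩ := hT₁ T (hT ▸ le_max_right _ _)
  obtain ⟨W, hW⟩ : ∃ W : ℝ → ℂ, W = waveSum (zerosUpTo T) := ⟨_, rfl⟩
  have hlim := tendsto_mean_waveSum_sq (S := zerosUpTo T)
    (injOn_im fun ρ hρ => hre ρ (mem_zerosUpTo.1 hρ).1)
  rw [Metric.tendsto_nhds] at hlim
  filter_upwards [hlim δ hδ0, hT₀ T (hT ▸ le_max_left _ _), eventually_gt_atTop 0]
    with Y hm happ hY
  rw [Real.dist_eq, abs_lt] at hm ⊢
  rw [← hW] at hm happ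
  obtain ⟨D, hD⟩ : ∃ D, D = meanUpTo (fun y => ‖(errFn y : ℂ) + W y‖ ^ 2) Y := ⟨_, rfl⟩
  rw [← hD] at happ
  have hWi : IntervalIntegrable (fun y => ‖W y‖ ^ 2) volume 0 Y :=
    ((hW ▸ continuous_waveSum _ : Continuous W).norm.pow 2).intervalIntegrable _ _
  have hEi := intervalIntegrable_errFn_sq 0 Y
  have hDi : IntervalIntegrable (fun y => ‖(errFn y : ℂ) + W y‖ ^ 2) volume 0 Y :=
    hW ▸ intervalIntegrable_approx_sq T 0 Y
  have hd : ∀ y, (errFn y + (W y).re) ^ 2 ≤ ‖(errFn y : ℂ) + W y‖ ^ 2 := fun y => by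
    rw [← sq_abs]
    refine pow_le_pow_left₀ (abs_nonneg _) ?_ 2
    simpa using Complex.abs_re_le_norm ((errFn y : ℂ) + W y)
  have h1 := meanUpTo_le_add (a := 1 + δ) (b := 1 + 1 / δ) hY hEi hWi hDi fun y => by
    have := sq_le_young (a := -(W y).re) (b := errFn y + (W y).re) hδ0
    rw [neg_add_cancel_comm_assoc, neg_sq, hW, sq_re_waveSum, ← hW] at this
    linarith [mul_le_mul_of_nonneg_left (hd y) (show 0 ≤ 1 + 1 / δ by positivity)]
  have h2 := meanUpTo_le_add (a := 1 + δ) (b := 1 + 1 / δ) hY hWi hEi hDi fun y => by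
    have := sq_le_young (a := -errFn y) (b := errFn y + (W y).re) hδ0
    rw [neg_add_cancel_left, neg_sq, hW, sq_re_waveSum, ← hW] at this
    linarith [mul_le_mul_of_nonneg_left (hd y) (show 0 ≤ 1 + 1 / δ by positivity)]
  rw [← hD] at h1 h2
  obtain ⟨M, hM⟩ : ∃ M, M = meanUpTo (fun y => errFn y ^ 2) Y := ⟨_, rfl⟩
  rw [← hM] at h1 h2 ⊢
  have hDb : (1 + 1 / δ) * D ≤ 2 * δ := by
    refine (mul_le_mul_of_nonneg_left happ (by positivity)).trans ?_
    rw [show (1 + 1 / δ) * δ ^ 2 = δ * δ + δ by field_simp]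
    linarith [mul_le_mul_of_nonneg_left hδ1 hδ0.le]
  constructor
  · by_contra hc
    have h3 := mul_le_mul_of_nonneg_left (not_lt.1 hc) (show 0 ≤ 1 + δ by linarith)
    linarith [mul_nonneg hδ0.le hη.le, mul_nonneg hδ0.le hV]
  · have h4 := mul_le_mul_of_nonneg_left (hm.2.le.trans le_rfl) (show 0 ≤ 1 + δ by linarith)
    linarith [mul_nonneg hδ0.le hV, mul_le_mul_of_nonneg_left hδ1 hδ0.le,
      mul_le_mul_of_nonneg_left hup (show 0 ≤ 1 + δ by linarith)]

/-- The same in the variable `x = e^y`. -/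
theorem tendsto_cramer (hre : ∀ ρ : ℂ, xiFn ρ = 0 → ρ.re = 1 / 2) :
    Tendsto (fun X : ℝ => (∫ x in (2 : ℝ)..X, ((ψ x - x) / √x) ^ 2 / x) / Real.log X) atTop
      (𝓝 cramerSum) := by
  have h1 := (tendsto_mean_errFn_sq hre).comp Real.tendsto_log_atTop
  have h2 : Tendsto (fun X : ℝ => (∫ y in (0 : ℝ)..Real.log 2, errFn y ^ 2) / Real.log X) atTop
      (𝓝 0) := tendsto_const_nhds.div_atTop Real.tendsto_log_atTop
  have h3 := h1.sub h2
  rw [sub_zero] at h3
  refine h3.congr' ?_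
  filter_upwards [eventually_ge_atTop 2] with X hX
  have e := intervalIntegral.integral_deriv_smul_comp_of_deriv_nonneg (a := Real.log 2)
    (b := Real.log X) (g := fun x => ((ψ x - x) / √x) ^ 2 / x)
    Real.continuous_exp.continuousOn (fun y _ => Real.hasDerivAt_exp y)
    fun y _ => (Real.exp_pos y).le
  rw [Real.exp_log (by norm_num : (0 : ℝ) < 2), Real.exp_log (by linarith)] at e
  rw [← e, Function.comp_apply, meanUpTo, smul_eq_mul, inv_mul_eq_div, ← sub_div,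
    ← intervalIntegral.integral_add_adjacent_intervals (intervalIntegrable_errFn_sq 0 (Real.log 2))
      (intervalIntegrable_errFn_sq _ _), add_sub_cancel_left]
  congr 1
  refine intervalIntegral.integral_congr fun y _ => ?_
  rw [Function.comp_apply, smul_eq_mul, Real.exp_half y |>.symm, errFn]
  have := (Real.exp_pos y).ne'
  field_simp

/-- The constant is positive. -/
theorem cramerSum_pos : 0 < cramerSum := by
  obtain ⟨T₀, hT₀⟩ := FA.OrdinateGaps.exists_ordinate_near one_pos le_rfl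
  obtain ⟨ρ, hρ, -⟩ := hT₀ T₀ le_rfl
  refine lt_of_lt_of_le ?_ (summable_weight_sq.le_tsum ρ fun σ _ => by positivity)
  have h1 : (0 : ℝ) < zeroWeight ρ := Nat.cast_pos.2 (one_le_zeroWeight hρ)
  have h2 : ρ ≠ 0 := fun h => im_ne_zero_of_zero hρ (by rw [h, zero_im])
  positivity

end FA.PsiDistribution

end
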