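import Fermat.Agent.PsiDistribution.Cramer
import Fermat.Agent.ErdosWintner.Measure

/-!
# The limiting distribution of the error term

On the Riemann hypothesis the law of `errFn` on `[0, Y]` converges weakly (Wintner): the means of
`exp (iξ W)` exist for the finite sums `W` over the zeros, closeness in mean square passes them on
to `errFn`, and Cramér's mean square gives the continuity at `0`. The limit is no point mass.
-/

set_option autoImplicit false

noncomputable section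

namespace FA.PsiDistribution

open Complex MeasureTheory Filter Topology Finset
open FA.RiemannMangoldt FA.ExplicitFormula
open scoped Real ENNReal BoundedContinuousFunction

/-- The mean over `[0, Y]` has a limit. -/
def HasMean (f : ℝ → ℂ) : Prop := ∃ L, Tendsto (meanUpTo f) atTop (𝓝 L)

theorem hasMean_finsetSum {ι : Type*} {s : Finset ι} {a : ι → ℂ} {f : ι → ℝ → ℂ}
    (hc : ∀ i ∈ s, ∀ p q : ℝ, IntervalIntegrable (f i) volume p q)
    (hf : ∀ i ∈ s, HasMean (f i)) : HasMean fun y => ∑ i ∈ s, a i * f i y := by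
  choose! L hL using hf
  refine ⟨∑ i ∈ s, a i * L i,
    (tendsto_finsetSum s fun i hi => (hL i hi).const_mul (a i)).congr fun Y => ?_⟩
  simp only [meanUpTo]
  rw [intervalIntegral.integral_finsetSum fun i hi => (hc i hi 0 Y).const_mul (a i), smul_sum]
  exact sum_congr rfl fun i _ => by rw [intervalIntegral.integral_const_mul, mul_smul_comm]

/-- The means of the powers of a wave sum, twisted. -/
theorem hasMean_exp_mul_pow (S : Finset ℂ) (n : ℕ) : ∀ c : ℝ,
    HasMean fun y : ℝ => cexp (c * y * I) * waveSum S y ^ n := by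
  induction n with
  | zero => exact fun c => by simpa using ⟨_, tendsto_mean_exp c⟩
  | succ n ih =>
    intro c
    have hW := continuous_waveSum S
    have h := hasMean_finsetSum (s := S) (a := fun ρ => (zeroWeight ρ : ℂ) / ρ)
      (f := fun ρ (y : ℝ) => cexp (((c + ρ.im : ℝ) : ℂ) * y * I) * waveSum S y ^ n)
      (fun ρ _ p q => Continuous.intervalIntegrable (by fun_prop) p q) fun ρ _ => ih _
    convert h using 2 with y
    rw [pow_succ, ← mul_assoc]
    nth_rw 2 [waveSum]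
    rw [mul_sum]
    refine sum_congr rfl fun ρ _ => ?_
    rw [show ((c + ρ.im : ℝ) : ℂ) * y * I = c * y * I + ρ.im * y * I by push_cast; ring,
      Complex.exp_add]
    ring

theorem norm_meanUpTo_sub_le {G : Type*} [NormedAddCommGroup G] [NormedSpace ℝ G] {f g : ℝ → G}
    {h : ℝ → ℝ} {Y : ℝ} (hY : 0 < Y) (hf : IntervalIntegrable f volume 0 Y)
    (hg : IntervalIntegrable g volume 0 Y) (hh : IntervalIntegrable h volume 0 Y)
    (hle : ∀ y, ‖f y - g y‖ ≤ h y) : ‖meanUpTo f Y - meanUpTo g Y‖ ≤ meanUpTo h Y := by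
  rw [meanUpTo, meanUpTo, meanUpTo, ← smul_sub, ← intervalIntegral.integral_sub hf hg, norm_smul,
    norm_inv, Real.norm_eq_abs, abs_of_pos hY, smul_eq_mul]
  exact mul_le_mul_of_nonneg_left (intervalIntegral.norm_integral_le_of_norm_le hY.le
    (Eventually.of_forall fun y _ => hle y) hh) (by positivity)

theorem hasMean_of_approx {f : ℝ → ℂ}
    (h : ∀ ε : ℝ, 0 < ε → ∃ g, HasMean g ∧
      ∀ᶠ Y in atTop, ‖meanUpTo f Y - meanUpTo g Y‖ ≤ ε) : HasMean f := by
  refine CompleteSpace.complete (Metric.cauchy_iff.2 ⟨map_neBot, fun ε hε => ?_⟩)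
  obtain ⟨g, ⟨L, hL⟩, hg⟩ := h (ε / 8) (by positivity)
  refine ⟨Metric.ball L (ε / 2), ?_, fun x hx y hy => ?_⟩
  · rw [Filter.mem_map]
    filter_upwards [hg, hL.eventually (Metric.ball_mem_nhds L (show 0 < ε / 4 by positivity))]
      with Y h1 h2
    rw [Set.mem_preimage, Metric.mem_ball, dist_eq_norm] at *
    refine lt_of_le_of_lt (norm_sub_le_norm_sub_add_norm_sub _ (meanUpTo g Y) _) ?_
    linarith
  · linarith [Metric.mem_ball.1 hx, Metric.mem_ball.1 hy, dist_triangle_right x y L]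

theorem norm_expI_sub_le (a b : ℝ) : ‖cexp ((a : ℂ) * I) - cexp ((b : ℂ) * I)‖ ≤ |a - b| := by
  rw [show cexp ((a : ℂ) * I) - cexp ((b : ℂ) * I) =
      cexp ((b : ℂ) * I) * (cexp (I * ((a - b : ℝ) : ℂ)) - 1) by
    rw [mul_sub, mul_one, ← Complex.exp_add]
    congr 2
    push_cast
    ring, norm_mul, Complex.norm_exp_ofReal_mul_I, one_mul]
  exact (Real.norm_exp_I_mul_ofReal_sub_one_le).trans (le_of_eq (Real.norm_eq_abs _))

/-- The exponential of a finite sum over the zeros has a mean. -/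
theorem hasMean_exp_waveSum (S : Finset ℂ) (w : ℂ) :
    HasMean fun y => cexp (w * waveSum S y) := by
  obtain ⟨B, hB⟩ : ∃ B, B = ‖w‖ * ∑ ρ ∈ S, (zeroWeight ρ : ℝ) / ‖ρ‖ := ⟨_, rfl⟩
  have hW := continuous_waveSum S
  have hb : ∀ y, ‖w * waveSum S y‖ ≤ B := fun y => by
    rw [norm_mul, hB]
    exact mul_le_mul_of_nonneg_left (norm_waveSum_le S y) (norm_nonneg w)
  have hB0 : 0 ≤ B := (norm_nonneg _).trans (hb 0)
  refine hasMean_of_approx fun ε hε => ?_
  obtain ⟨n, hn1, hn2⟩ : ∃ n : ℕ, B / n.succ ≤ 1 / 2 ∧ B ^ n / n.factorial * 2 ≤ ε :=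
    (((tendsto_const_nhds.div_atTop (tendsto_natCast_atTop_atTop.comp
        (tendsto_add_atTop_nat 1))).eventually
      (eventually_le_nhds (show (0 : ℝ) < 1 / 2 by norm_num))).and
      (((FloorSemiring.tendsto_pow_div_factorial_atTop B).mul_const 2).eventually
        (eventually_le_nhds (show (0 : ℝ) * 2 < ε by simpa using hε)))).exists
  refine ⟨fun y => ∑ m ∈ range n, w ^ m / (m.factorial : ℂ) * waveSum S y ^ m,
    hasMean_finsetSum (fun m _ p q => Continuous.intervalIntegrable (by fun_prop) p q)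
      fun m _ => ?_,
    ?_⟩
  · simpa using hasMean_exp_mul_pow S m 0
  filter_upwards [eventually_gt_atTop 0] with Y hY
  refine (norm_meanUpTo_sub_le (h := fun _ => ε) hY
    (Continuous.intervalIntegrable (by fun_prop) _ _)
    (Continuous.intervalIntegrable (by fun_prop) _ _) intervalIntegrable_const fun y => ?_).trans
    (le_of_eq ?_)
  · have hle : ‖w * waveSum S y‖ / n.succ ≤ 1 / 2 :=
      (div_le_div_of_nonneg_right (hb y) (Nat.cast_nonneg _)).trans hn1
    refine le_trans (le_of_eq ?_) ((Complex.exp_bound' hle).trans (le_trans ?_ hn2))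
    · congr 2
      exact sum_congr rfl fun m _ => by rw [mul_pow]; ring
    · gcongr
      exact hb y
  · simp [meanUpTo, hY.ne']

theorem intervalIntegrable_expI (ξ a b : ℝ) :
    IntervalIntegrable (fun y => cexp (((ξ * errFn y : ℝ) : ℂ) * I)) volume a b :=
  intervalIntegrable_errFn (Φ := fun _ e => cexp (((ξ * e : ℝ) : ℂ) * I)) (by fun_prop) a b

theorem intervalIntegrable_approx_abs (T a b : ℝ) :
    IntervalIntegrable (fun y => |errFn y + (waveSum (zerosUpTo T) y).re|) volume a b :=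
  intervalIntegrable_errFn (Φ := fun y e => |e + (waveSum (zerosUpTo T) y).re|) (by
    have := continuous_waveSum (zerosUpTo T)
    fun_prop) a b

/-- The characteristic function of `errFn` on `[0, Y]` converges. -/
theorem hasMean_charFun (hre : ∀ ρ : ℂ, xiFn ρ = 0 → ρ.re = 1 / 2) (ξ : ℝ) :
    HasMean fun y => cexp (((ξ * errFn y : ℝ) : ℂ) * I) := by
  refine hasMean_of_approx fun ε hε => ?_
  obtain ⟨s, hs⟩ : ∃ s, s = ε / (|ξ| + 1) := ⟨_, rfl⟩
  have hs0 : 0 < s := hs ▸ by positivity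
  obtain ⟨T, hT⟩ := exists_approx hre (pow_pos hs0 2)
  obtain ⟨W, hWdef⟩ : ∃ W : ℝ → ℂ, W = waveSum (zerosUpTo T) := ⟨_, rfl⟩
  have hWc : Continuous W := hWdef ▸ continuous_waveSum _
  refine ⟨fun y => cexp (-(ξ : ℂ) * I * W y), hWdef ▸ hasMean_exp_waveSum _ _, ?_⟩
  filter_upwards [hT T le_rfl, eventually_gt_atTop 0] with Y hY hY0
  rw [← hWdef] at hY
  have hDi : IntervalIntegrable (fun y => ‖(errFn y : ℂ) + W y‖ ^ 2) volume 0 Y :=
    hWdef ▸ intervalIntegrable_approx_sq T 0 Y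
  have hAi : IntervalIntegrable (fun y => |errFn y + (W y).re|) volume 0 Y :=
    hWdef ▸ intervalIntegrable_approx_abs T 0 Y
  have habs : meanUpTo (fun y => |errFn y + (W y).re|) Y ≤
      s / 2 * 1 + 1 / (2 * s) * meanUpTo (fun y => ‖(errFn y : ℂ) + W y‖ ^ 2) Y := by
    have h := meanUpTo_le_add (g := fun _ => 1) (a := s / 2) (b := 1 / (2 * s)) hY0 hAi
      intervalIntegrable_const hDi fun y => by
      have h1 : |errFn y + (W y).re| ≤ ‖(errFn y : ℂ) + W y‖ := by
        simpa using Complex.abs_re_le_norm ((errFn y : ℂ) + W y)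
      refine h1.trans ?_
      rw [mul_one, div_mul_eq_mul_div, one_mul, div_add_div _ _ two_ne_zero (by positivity),
        le_div_iff₀ (by positivity)]
      linarith [sq_nonneg (‖(errFn y : ℂ) + W y‖ - s)]
    rwa [show meanUpTo (fun _ : ℝ => (1 : ℝ)) Y = 1 by simp [meanUpTo, hY0.ne']] at h
  refine (norm_meanUpTo_sub_le (h := fun y => |ξ| * |errFn y + (W y).re|) hY0
    (intervalIntegrable_expI ξ 0 Y) (Continuous.intervalIntegrable (by fun_prop) _ _)
    (hAi.const_mul _) fun y => ?_).trans ?_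
  · rw [show -(ξ : ℂ) * I * W y = ((-(ξ * (W y).re) : ℝ) : ℂ) * I by
      rw [hWdef]
      conv_lhs => rw [← waveSum_zerosUpTo_real]
      push_cast
      ring]
    refine (norm_expI_sub_le _ _).trans (le_of_eq ?_)
    rw [← abs_mul]
    congr 1
    ring
  · rw [show meanUpTo (fun y => |ξ| * |errFn y + (W y).re|) Y =
      |ξ| * meanUpTo (fun y => |errFn y + (W y).re|) Y by
      simp only [meanUpTo, smul_eq_mul, intervalIntegral.integral_const_mul]; ring]
    have h2 : 1 / (2 * s) * meanUpTo (fun y => ‖(errFn y : ℂ) + W y‖ ^ 2) Y ≤ s / 2 := by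
      refine (mul_le_mul_of_nonneg_left hY (by positivity)).trans (le_of_eq ?_)
      field_simp
    have h3 : |ξ| * s ≤ ε := by
      rw [hs, mul_div_assoc', div_le_iff₀ (by positivity)]
      linarith
    refine le_trans (mul_le_mul_of_nonneg_left (habs.trans ?_) (abs_nonneg ξ)) h3
    linarith

theorem norm_charFun_sub_one_le (hre : ∀ ρ : ℂ, xiFn ρ = 0 → ρ.re = 1 / 2) {ξ : ℝ} {z : ℂ}
    (hz : Tendsto (meanUpTo fun y => cexp (((ξ * errFn y : ℝ) : ℂ) * I)) atTop (𝓝 z)) :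
    ‖z - 1‖ ≤ |ξ| * ((1 + cramerSum) / 2) := by
  have h1 := (hz.sub_const 1).norm
  have h2 := (((tendsto_mean_errFn_sq hre).const_add 1).div_const 2).const_mul |ξ|
  refine le_of_tendsto_of_tendsto h1 h2 ?_
  filter_upwards [eventually_gt_atTop 0] with Y hY
  have e1 : meanUpTo (fun _ : ℝ => (1 : ℂ)) Y = 1 := by simp [meanUpTo, hY.ne']
  have hsq := intervalIntegrable_errFn_sq 0 Y
  refine le_trans (le_of_eq (by rw [e1])) ((norm_meanUpTo_sub_le (g := fun _ => (1 : ℂ))
    (h := fun y => |ξ| * ((1 + errFn y ^ 2) / 2)) hY (intervalIntegrable_expI ξ 0 Y)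
    intervalIntegrable_const (((intervalIntegrable_const.add hsq).div_const 2).const_mul _)
    fun y => ?_).trans (le_of_eq ?_))
  · have h := norm_expI_sub_le (ξ * errFn y) 0
    rw [ofReal_zero, zero_mul, Complex.exp_zero, sub_zero, abs_mul] at h
    refine h.trans (mul_le_mul_of_nonneg_left ?_ (abs_nonneg ξ))
    linarith [sq_nonneg (|errFn y| - 1), sq_abs (errFn y)]
  · simp only [meanUpTo, smul_eq_mul]
    rw [intervalIntegral.integral_const_mul, intervalIntegral.integral_div,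
      intervalIntegral.integral_add intervalIntegrable_const hsq, intervalIntegral.integral_const,
      smul_eq_mul, sub_zero, mul_one]
    field_simp

/-- The law of `errFn` on `(0, N + 1]`. -/
def errLaw (N : ℕ) : ProbabilityMeasure ℝ :=
  ⟨((N + 1 : ℕ) : ℝ≥0∞)⁻¹ • (volume.restrict (Set.Ioc 0 ((N + 1 : ℕ) : ℝ))).map errFn, by
    constructor
    rw [Measure.smul_apply, Measure.map_apply measurable_errFn MeasurableSet.univ,
      Set.preimage_univ, Measure.restrict_apply_univ, Real.volume_Ioc, sub_zero,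
      ENNReal.ofReal_natCast, smul_eq_mul,
      ENNReal.inv_mul_cancel (Nat.cast_ne_zero.2 N.succ_ne_zero) (ENNReal.natCast_ne_top _)]⟩

theorem integral_errLaw {G : Type*} [NormedAddCommGroup G] [NormedSpace ℝ G]
    [SecondCountableTopology G] (F : C(ℝ, G)) (N : ℕ) :
    ∫ x, F x ∂(errLaw N : Measure ℝ) = meanUpTo (fun y => F (errFn y)) ((N + 1 : ℕ) : ℝ) := by
  rw [errLaw, ProbabilityMeasure.coe_mk, integral_smul_measure,
    integral_map measurable_errFn.aemeasurable F.continuous.aestronglyMeasurable,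
    meanUpTo, intervalIntegral.integral_of_le (Nat.cast_nonneg _), ENNReal.toReal_inv,
    ENNReal.toReal_natCast]

theorem charFun_errLaw (ξ : ℝ) (N : ℕ) :
    charFun (errLaw N : Measure ℝ) ξ =
      meanUpTo (fun y => cexp (((ξ * errFn y : ℝ) : ℂ) * I)) ((N + 1 : ℕ) : ℝ) := by
  rw [charFun_apply_real]
  have h := integral_errLaw ⟨fun x : ℝ => cexp ((ξ : ℂ) * x * I), by fun_prop⟩ N
  simp only [ContinuousMap.coe_mk] at h
  rw [h]
  simp only [ofReal_mul]

theorem abs_meanUpTo_sub_le {f : ℝ → ℝ} {B Y M : ℝ} (hf : ∀ y, |f y| ≤ B)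
    (hi : ∀ p q : ℝ, IntervalIntegrable f volume p q) (hY : 0 < Y) (hYM : Y ≤ M)
    (hM : M ≤ Y + 1) : |meanUpTo f Y - meanUpTo f M| ≤ 2 * B / M := by
  have hB : 0 ≤ B := (abs_nonneg _).trans (hf 0)
  have hM0 : 0 < M := by linarith
  have hb : ∀ p q : ℝ, p ≤ q → |∫ y in p..q, f y| ≤ B * (q - p) := fun p q hpq => by
    rw [← Real.norm_eq_abs]
    refine (intervalIntegral.norm_integral_le_of_norm_le_const fun y _ => ?_).trans
      (le_of_eq (by rw [abs_of_nonneg (sub_nonneg.2 hpq)]))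
    rw [Real.norm_eq_abs]
    exact hf y
  have h1 := hb 0 Y hY.le
  have h2 := hb Y M hYM
  simp only [meanUpTo, smul_eq_mul]
  rw [← intervalIntegral.integral_add_adjacent_intervals (hi 0 Y) (hi Y M)]
  obtain ⟨I₁, hI₁⟩ : ∃ I₁, I₁ = ∫ y in (0 : ℝ)..Y, f y := ⟨_, rfl⟩
  obtain ⟨I₂, hI₂⟩ : ∃ I₂, I₂ = ∫ y in Y..M, f y := ⟨_, rfl⟩
  rw [← hI₁] at h1 ⊢
  rw [← hI₂] at h2 ⊢
  rw [sub_zero] at h1
  rw [show Y⁻¹ * I₁ - M⁻¹ * (I₁ + I₂) = (I₁ * ((M - Y) / Y) - I₂) / M by field_simp; ring, abs_div,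
    abs_of_pos hM0]
  refine div_le_div_of_nonneg_right ((abs_sub _ _).trans ?_) hM0.le
  rw [abs_mul, abs_of_nonneg (div_nonneg (by linarith : 0 ≤ M - Y) hY.le)]
  have h3 : |I₁| * ((M - Y) / Y) ≤ B * (M - Y) := by
    rw [mul_div_assoc', div_le_iff₀ hY]
    have := mul_le_mul_of_nonneg_right h1 (show 0 ≤ M - Y by linarith)
    linarith
  have h4 : B * (M - Y) ≤ B := mul_le_of_le_one_right hB (by linarith)
  linarith

/-- **Wintner's limiting distribution.** -/
theorem exists_limit_law (hre : ∀ ρ : ℂ, xiFn ρ = 0 → ρ.re = 1 / 2) :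
    ∃ μ : ProbabilityMeasure ℝ, ∀ F : ℝ →ᵇ ℝ,
      Tendsto (meanUpTo fun y => F (errFn y)) atTop (𝓝 (∫ x, F x ∂(μ : Measure ℝ))) := by
  choose φ hφ using fun ξ => hasMean_charFun hre ξ
  have h0 : φ 0 = 1 := by
    have h := norm_charFun_sub_one_le hre (hφ 0)
    rw [abs_zero, zero_mul, norm_le_zero_iff, sub_eq_zero] at h
    exact h
  have hc : ContinuousAt φ 0 := by
    rw [ContinuousAt, h0, tendsto_iff_norm_sub_tendsto_zero]
    refine squeeze_zero (fun ξ => norm_nonneg _) (fun ξ => norm_charFun_sub_one_le hre (hφ ξ)) ?_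
    simpa using ((continuous_abs.tendsto (0 : ℝ)).mul_const ((1 + cramerSum) / 2))
  have htop : Tendsto (fun N : ℕ => ((N + 1 : ℕ) : ℝ)) atTop atTop :=
    tendsto_natCast_atTop_atTop.comp (tendsto_add_atTop_nat 1)
  obtain ⟨μ, hμ⟩ := FA.ErdosWintner.exists_tendsto_of_charFun (μ := errLaw) hc fun ξ => by
    simp only [charFun_errLaw]
    exact (hφ ξ).comp htop
  refine ⟨μ, fun F => ?_⟩
  rw [ProbabilityMeasure.tendsto_iff_forall_integral_tendsto] at hμ
  have h1 : Tendsto (fun N : ℕ => meanUpTo (fun y => F (errFn y)) ((N + 1 : ℕ) : ℝ)) atTop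
      (𝓝 (∫ x, F x ∂(μ : Measure ℝ))) := (hμ F).congr fun N => integral_errLaw F.toContinuousMap N
  have hg : Tendsto (fun Y : ℝ => ⌊Y⌋₊) atTop atTop := tendsto_nat_floor_atTop
  have h2 : Tendsto (fun Y : ℝ => meanUpTo (fun y => F (errFn y)) Y -
      meanUpTo (fun y => F (errFn y)) ((⌊Y⌋₊ + 1 : ℕ) : ℝ)) atTop (𝓝 0) := by
    refine squeeze_zero_norm' (a := fun Y : ℝ => 2 * ‖F‖ / ((⌊Y⌋₊ + 1 : ℕ) : ℝ)) ?_
      (tendsto_const_nhds.div_atTop (htop.comp hg))
    filter_upwards [eventually_gt_atTop 0] with Y hY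
    rw [Real.norm_eq_abs]
    refine abs_meanUpTo_sub_le (fun y => ?_)
      (fun p q => intervalIntegrable_errFn (Φ := fun _ e => F e) (by fun_prop) p q) hY ?_ ?_
    · rw [← Real.norm_eq_abs]
      exact F.norm_coe_le_norm _
    · push_cast
      exact (Nat.lt_floor_add_one Y).le
    · push_cast
      linarith [Nat.floor_le hY.le]
  simpa using h2.add (h1.comp hg)

theorem one_sub_cos_add_le (u v : ℝ) :
    1 - Real.cos (u + v) ≤ 2 * (1 - Real.cos u) + 2 * (1 - Real.cos v) := by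
  have e : ∀ x : ℝ, 1 - Real.cos x = 2 * Real.sin (x / 2) ^ 2 := fun x => by
    rw [Real.sin_sq_eq_half_sub, mul_div_cancel₀ x two_ne_zero]
    ring
  rw [e, e, e, add_div, Real.sin_add]
  have h1 : (Real.sin (u / 2) * Real.cos (v / 2)) ^ 2 ≤ Real.sin (u / 2) ^ 2 := by
    rw [mul_pow]
    exact mul_le_of_le_one_right (sq_nonneg _) (Real.cos_sq_le_one _)
  have h2 : (Real.cos (u / 2) * Real.sin (v / 2)) ^ 2 ≤ Real.sin (v / 2) ^ 2 := by
    rw [mul_pow]
    exact mul_le_of_le_one_left (sq_nonneg _) (Real.cos_sq_le_one _)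
  linarith [sq_nonneg (Real.sin (u / 2) * Real.cos (v / 2) - Real.cos (u / 2) * Real.sin (v / 2))]

/-- **The limit is no point mass.** -/
theorem limit_law_ne_dirac (hre : ∀ ρ : ℂ, xiFn ρ = 0 → ρ.re = 1 / 2) {μ : ProbabilityMeasure ℝ}
    (hμ : ∀ F : ℝ →ᵇ ℝ,
      Tendsto (meanUpTo fun y => F (errFn y)) atTop (𝓝 (∫ x, F x ∂(μ : Measure ℝ))))
    (a : ℝ) : (μ : Measure ℝ) ≠ Measure.dirac a := by
  intro hdir
  have hV := cramerSum_pos
  obtain ⟨T₁, hT₁⟩ := exists_height_sum (half_pos hV)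
  obtain ⟨T₀, hT₀⟩ := exists_approx hre (show 0 < cramerSum / 32 by positivity)
  obtain ⟨T, hT⟩ : ∃ T, T = max T₀ T₁ := ⟨_, rfl⟩
  have hlow := (hT₁ T (hT ▸ le_max_right _ _)).1
  have happ := hT₀ T (hT ▸ le_max_left _ _)
  obtain ⟨σ, hσ⟩ : ∃ σ, σ = ∑ ρ ∈ zerosUpTo T, (zeroWeight ρ : ℝ) ^ 2 / ‖ρ‖ ^ 2 := ⟨_, rfl⟩
  rw [← hσ] at hlow
  obtain ⟨W, hWdef⟩ : ∃ W : ℝ → ℂ, W = waveSum (zerosUpTo T) := ⟨_, rfl⟩
  rw [← hWdef] at happ
  have hWc : Continuous W := hWdef ▸ continuous_waveSum _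
  obtain ⟨B, hB⟩ : ∃ B, B = ∑ ρ ∈ zerosUpTo T, (zeroWeight ρ : ℝ) / ‖ρ‖ := ⟨_, rfl⟩
  have hWb : ∀ y, |(W y).re| ≤ B := fun y =>
    (Complex.abs_re_le_norm _).trans (hB ▸ hWdef ▸ norm_waveSum_le _ y)
  have hB0 : 0 ≤ B := (abs_nonneg _).trans (hWb 0)
  obtain ⟨ξ, hξ⟩ : ∃ ξ, ξ = π / (B + |a| + 1) := ⟨_, rfl⟩
  have hξ0 : 0 < ξ := hξ ▸ by positivity
  obtain ⟨F, hF⟩ : ∃ F : ℝ →ᵇ ℝ, ∀ x, F x = 1 - Real.cos (ξ * (x - a)) :=
    ⟨BoundedContinuousFunction.ofNormedAddCommGroup (fun x => 1 - Real.cos (ξ * (x - a)))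
      (by fun_prop) 2 (fun x => by
        rw [Real.norm_eq_abs, abs_le]
        constructor <;> linarith [Real.cos_le_one (ξ * (x - a)),
          Real.neg_one_le_cos (ξ * (x - a))]), fun x => rfl⟩
  have hF0 : Tendsto (meanUpTo fun y => F (errFn y)) atTop (𝓝 0) := by
    have h := hμ F
    rwa [hdir, integral_dirac, hF, sub_self, mul_zero, Real.cos_zero, sub_self] at h
  have hW0 : Tendsto (meanUpTo W) atTop (𝓝 0) := by
    have h : Tendsto (fun Y => ∑ ρ ∈ zerosUpTo T, (zeroWeight ρ : ℂ) / ρ *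
        meanUpTo (fun y : ℝ => cexp (ρ.im * y * I)) Y) atTop
        (𝓝 (∑ ρ ∈ zerosUpTo T, (zeroWeight ρ : ℂ) / ρ * if ρ.im = 0 then 1 else 0)) :=
      tendsto_finsetSum _ fun ρ _ => (tendsto_mean_exp ρ.im).const_mul _
    rw [sum_eq_zero fun ρ hρ => by
      rw [if_neg (im_ne_zero_of_zero (mem_zerosUpTo.1 hρ).1), mul_zero]] at h
    refine h.congr fun Y => ?_
    simp only [meanUpTo, hWdef, waveSum]
    rw [intervalIntegral.integral_finsetSum fun ρ _ =>
      Continuous.intervalIntegrable (by fun_prop) _ _, smul_sum]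
    exact sum_congr rfl fun ρ _ => by rw [intervalIntegral.integral_const_mul, mul_smul_comm]
  have hW1 : Tendsto (meanUpTo fun y => (W y).re) atTop (𝓝 0) := by
    refine (Complex.continuous_re.continuousAt.tendsto.comp hW0).congr fun Y => ?_
    simp only [meanUpTo, Function.comp_apply, Complex.smul_re]
    exact congrArg _ (reCLM.intervalIntegral_comp_comm (hWc.intervalIntegrable _ _)).symm
  have hW2 : Tendsto (meanUpTo fun y => ‖W y‖ ^ 2) atTop (𝓝 σ) := hWdef ▸ hσ ▸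
    tendsto_mean_waveSum_sq (injOn_im fun ρ hρ => hre ρ (mem_zerosUpTo.1 hρ).1)
  have hkey : ∀ᶠ Y in atTop, ξ ^ 2 / 8 * (meanUpTo (fun y => ‖W y‖ ^ 2) Y +
      2 * a * meanUpTo (fun y => (W y).re) Y) ≤
      2 * meanUpTo (fun y => F (errFn y)) Y + ξ ^ 2 * (cramerSum / 32) := by
    filter_upwards [happ, eventually_gt_atTop 0] with Y hY hY0
    have hi1 : IntervalIntegrable (fun y => ‖W y‖ ^ 2) volume 0 Y :=
      (hWc.norm.pow 2).intervalIntegrable _ _
    have hi2 : IntervalIntegrable (fun y => (W y).re) volume 0 Y :=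
      (Complex.continuous_re.comp hWc).intervalIntegrable _ _
    have hi3 : IntervalIntegrable (fun y => F (errFn y)) volume 0 Y :=
      intervalIntegrable_errFn (Φ := fun _ e => F e) (by fun_prop) _ _
    have hi4 : IntervalIntegrable (fun y => ‖(errFn y : ℂ) + W y‖ ^ 2) volume 0 Y :=
      hWdef ▸ intervalIntegrable_approx_sq T 0 Y
    have h := meanUpTo_le_add (f := fun y => ξ ^ 2 / 8 * (‖W y‖ ^ 2 + 2 * a * (W y).re))
      (a := 2) (b := ξ ^ 2) hY0 ((hi1.add (hi2.const_mul _)).const_mul _) hi3 hi4 fun y => by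
      obtain ⟨u, hu⟩ : ∃ u, u = ξ * (-(W y).re - a) := ⟨_, rfl⟩
      have hup : |u| ≤ π := by
        rw [hu, abs_mul, abs_of_pos hξ0, hξ, div_mul_eq_mul_div, div_le_iff₀ (by positivity)]
        refine mul_le_mul_of_nonneg_left ((abs_sub _ _).trans ?_) Real.pi_pos.le
        rw [abs_neg]
        linarith [hWb y]
      have h1 := Real.cos_le_one_sub_mul_cos_sq hup
      have h2 := one_sub_cos_add_le (ξ * (errFn y - a)) (-(ξ * (errFn y + (W y).re)))
      rw [show ξ * (errFn y - a) + -(ξ * (errFn y + (W y).re)) = u by rw [hu]; ring,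
        Real.cos_neg, ← hF] at h2
      have h3 := Real.one_sub_sq_div_two_le_cos (x := ξ * (errFn y + (W y).re))
      have h4 : (errFn y + (W y).re) ^ 2 ≤ ‖(errFn y : ℂ) + W y‖ ^ 2 := by
        rw [← sq_abs]
        refine pow_le_pow_left₀ (abs_nonneg _) ?_ 2
        simpa using Complex.abs_re_le_norm ((errFn y : ℂ) + W y)
      have h5 : 1 / 8 ≤ 2 / π ^ 2 := by
        rw [div_le_div_iff₀ (by norm_num) (by positivity)]
        nlinarith [Real.pi_le_four, Real.pi_pos]
      have h6 := mul_le_mul_of_nonneg_right h5 (sq_nonneg u)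
      have h7 : ξ ^ 2 / 8 * (‖W y‖ ^ 2 + 2 * a * (W y).re) ≤ 1 / 8 * u ^ 2 := by
        rw [hu, hWdef, ← sq_re_waveSum]
        linarith [mul_nonneg (sq_nonneg ξ) (sq_nonneg a)]
      linarith [mul_le_mul_of_nonneg_left h4 (sq_nonneg ξ)]
    have e : meanUpTo (fun y => ξ ^ 2 / 8 * (‖W y‖ ^ 2 + 2 * a * (W y).re)) Y =
        ξ ^ 2 / 8 * (meanUpTo (fun y => ‖W y‖ ^ 2) Y +
          2 * a * meanUpTo (fun y => (W y).re) Y) := by
      simp only [meanUpTo, smul_eq_mul]
      rw [intervalIntegral.integral_const_mul, intervalIntegral.integral_add hi1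
        (hi2.const_mul _), intervalIntegral.integral_const_mul]
      ring
    rw [e] at h
    linarith [mul_le_mul_of_nonneg_left hY (sq_nonneg ξ)]
  have hfin := le_of_tendsto_of_tendsto ((hW2.add (hW1.const_mul (2 * a))).const_mul (ξ ^ 2 / 8))
    ((hF0.const_mul 2).add_const (ξ ^ 2 * (cramerSum / 32))) hkey
  rw [mul_zero, mul_zero, add_zero, zero_add] at hfin
  have h8 : σ / 8 ≤ cramerSum / 32 := by
    refine le_of_mul_le_mul_left ?_ (pow_pos hξ0 2)
    linarith
  linarith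

end FA.PsiDistribution

end
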